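import Mathlib
import Fermat.Agent.X0.Alg.Dict
import Fermat.Agent.X0.Alg.PlaceBasic
import Fermat.Agent.X0.RR.EOver

/-!
# X-RR, RR7 (D1, abstract part): `eOver` and valuations in terms of `Place.ord`

`B` a Dedekind domain with fraction field `F`, a `K`-algebra; `A` a ring with `Algebra A B`.
For a height-one prime `w` of `B` with associated place `v = Place.ofHeightOneSpectrum w`:

* `valuation_eq_exp_neg_ord` : `w.valuation F h = exp (-(v.ord h))` for `h ≠ 0`;
* `valuation_le_exp_iff` : `w.valuation F h ≤ exp m ↔ -m ≤ v.ord h` for `h ≠ 0`;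
* `eOver_eq_ord` : if `w ∩ A = (t)` then `eOver A w = v.ord t`.
-/

set_option autoImplicit false

open AlgebraicCurve IsDedekindDomain WithZero UniqueFactorizationMonoid

namespace Fermat.Agent.X0.RR7

variable {K F : Type*} [Field K] [Field F] [Algebra K F]
variable {B : Type*} [CommRing B] [IsDedekindDomain B] [Algebra B F] [IsFractionRing B F]
  [Algebra K B] [IsScalarTower K B F]

theorem valuation_eq_exp_neg_ord (w : HeightOneSpectrum B) {h : F} (h0 : h ≠ 0) :
    w.valuation F h = exp (-((Place.ofHeightOneSpectrum (K := K) (F := F) w).ord h)) := by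
  rw [Place.ord_ofHeightOneSpectrum, neg_neg, exp_log]
  exact (map_ne_zero _).mpr h0

theorem valuation_le_exp_iff (w : HeightOneSpectrum B) {h : F} (h0 : h ≠ 0) (m : ℤ) :
    w.valuation F h ≤ exp m ↔ -m ≤ (Place.ofHeightOneSpectrum (K := K) (F := F) w).ord h := by
  rw [valuation_eq_exp_neg_ord (K := K) w h0, exp_le_exp]
  omega

theorem ord_algebraMap_eq_count (w : HeightOneSpectrum B) {r : B} (hr : r ≠ 0) :
    (Place.ofHeightOneSpectrum (K := K) (F := F) w).ord (algebraMap B F r) =
      ((normalizedFactors (Ideal.span {r})).count w.asIdeal : ℤ) := by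
  classical
  have hsr : Ideal.span {r} ≠ 0 := Submodule.span_singleton_eq_bot.mp.mt hr
  rw [Place.ord_ofHeightOneSpectrum, HeightOneSpectrum.valuation_of_algebraMap,
    w.intValuation_if_neg hr, log_exp, neg_neg,
    Ideal.count_associates_factors_eq hsr w.isPrime w.ne_bot]

variable {A : Type*} [CommRing A] [Algebra A B]

/-- If the prime `w` of `B` contracts to the principal ideal `(t)` of `A`, its ramification
index over `A` is the order of `t` at the place of `w`. -/
theorem eOver_eq_ord (w : HeightOneSpectrum B) (t : A) (ht : algebraMap A B t ≠ 0)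
    (hunder : w.asIdeal.under A = Ideal.span {t}) :
    (RR.eOver A w : ℤ) =
      (Place.ofHeightOneSpectrum (K := K) (F := F) w).ord
        (algebraMap B F (algebraMap A B t)) := by
  classical
  rw [ord_algebraMap_eq_count (K := K) w ht]
  unfold RR.eOver
  rw [hunder, Ideal.map_span, Set.image_singleton]

end Fermat.Agent.X0.RR7
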