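import Mathlib
import Fermat.Agent.X0.Alg.DegCore
import Fermat.Agent.X0.RR.Infty
import Fermat.Agent.X0.RR7.DictAbs

/-!
# X-RR, RR7 (D1, infinite part): primes of `Binf K F = integralClosure (Rinf K) F` versus poles

Coordinate context: `[Algebra K[X] F] [Algebra (RatFunc K) F]` with the usual towers, and
`x = coordX K F`.  The Dedekind-domain / fraction-ring / `K`-algebra structure of `Binf K F` are
instance hypotheses (provided by `RR/Setup`).
-/

set_option autoImplicit false

open AlgebraicCurve IsDedekindDomain WithZero Polynomial FunctionField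

namespace Fermat.Agent.X0.RR7

open Fermat.Agent.X0.RR

variable {K F : Type*} [Field K] [Field F] [Algebra K F]
  [Algebra K[X] F] [Algebra (RatFunc K) F] [IsScalarTower K[X] (RatFunc K) F]
  [IsScalarTower K K[X] F]

/-- `K → RatFunc K → F` is a tower. -/
theorem isScalarTower_base_rat : IsScalarTower K (RatFunc K) F := by
  refine IsScalarTower.of_algebraMap_eq fun a => ?_
  rw [IsScalarTower.algebraMap_apply K K[X] F, IsScalarTower.algebraMap_apply K[X] (RatFunc K) F,
    ← IsScalarTower.algebraMap_apply K K[X] (RatFunc K)]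

theorem algebraMap_ratFunc_X : algebraMap (RatFunc K) F RatFunc.X = coordX K F := by
  rw [← RatFunc.algebraMap_X, ← IsScalarTower.algebraMap_apply]

theorem coordX_ne_zero_of_ratFunc : coordX K F ≠ 0 := by
  intro h
  have h3 : algebraMap (RatFunc K) F RatFunc.X = 0 := by rw [algebraMap_ratFunc_X, h]
  rw [map_eq_zero] at h3
  exact RatFunc.X_ne_zero h3

/-- The valuation on `RatFunc K` induced by a place of `F`. -/
noncomputable def Place.ratVal (v : Place K F) : Valuation (RatFunc K) ℤᵐ⁰ :=
  v.adicValuation.comap (algebraMap (RatFunc K) F)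

theorem Place.ratVal_apply (v : Place K F) (f : RatFunc K) :
    Place.ratVal v f = v.adicValuation (algebraMap (RatFunc K) F f) := rfl

instance Place.ratVal_isTrivialOn (v : Place K F) : (Place.ratVal v).IsTrivialOn K where
  eq_one a ha := by
    haveI := isScalarTower_base_rat (K := K) (F := F)
    rw [Place.ratVal_apply, ← IsScalarTower.algebraMap_apply]
    have h0 : algebraMap K F a ≠ 0 := by simpa using ha
    rw [Fermat.Agent.X0.Place.adicValuation_eq_exp_neg_ord v h0,
      Fermat.Agent.X0.Place.ord_algebraMap, neg_zero, exp_zero]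

/-- At a pole of `x`, the order of a rational function of `x` is `deg · ord x`. -/
theorem Place.ord_algebraMap_ratFunc_of_neg (v : Place K F) (hx : v.ord (coordX K F) < 0)
    {f : RatFunc K} (hf : f ≠ 0) :
    v.ord (algebraMap (RatFunc K) F f) = f.intDegree * v.ord (coordX K F) := by
  have hx0 : coordX K F ≠ 0 := by
    intro h
    rw [h, v.ord_zero] at hx
    exact lt_irrefl _ hx
  have hX : Place.ratVal v RatFunc.X = exp (-(v.ord (coordX K F))) := by
    rw [Place.ratVal_apply, algebraMap_ratFunc_X,
      Fermat.Agent.X0.Place.adicValuation_eq_exp_neg_ord v hx0]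
  have hlt : 1 < Place.ratVal v RatFunc.X := by
    rw [hX, ← exp_zero, exp_lt_exp]
    omega
  have h := RatFunc.valuation_eq_valuation_X_zpow_intDegree_of_one_lt_valuation_X hlt hf
  have hf0 : algebraMap (RatFunc K) F f ≠ 0 := by
    simpa using hf
  rw [Place.ratVal_apply, Fermat.Agent.X0.Place.adicValuation_eq_exp_neg_ord v hf0, hX,
    ← exp_zsmul, exp_inj] at h
  rw [smul_eq_mul] at h
  linarith

/-- At a pole of `x`, the valuation ring contains the image of `Rinf K`. -/
theorem Place.algebraMap_Rinf_mem (v : Place K F) (hx : v.ord (coordX K F) < 0) (f : Rinf K) :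
    algebraMap (Rinf K) F f ∈ v.toValuationSubring := by
  show algebraMap (RatFunc K) F (f : RatFunc K) ∈ v.toValuationSubring
  rcases eq_or_ne (f : RatFunc K) 0 with h0 | h0
  · rw [h0, map_zero]
    exact zero_mem _
  apply Fermat.Agent.X0.Place.mem_of_ord_nonneg
  rw [Place.ord_algebraMap_ratFunc_of_neg v hx h0]
  have hdeg : (f : RatFunc K).intDegree ≤ 0 := by
    rcases (mem_Rinf_iff (f : RatFunc K)).mp f.2 with h | h
    · exact absurd h h0
    · exact h
  nlinarith

/-- At a pole of `x`, the valuation ring contains `Binf K F`. -/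
theorem Place.Binf_mem (v : Place K F) (hx : v.ord (coordX K F) < 0) (b : Binf K F) :
    (b : F) ∈ v.toValuationSubring := by
  let φ : Rinf K →+* v.toValuationSubring :=
    (algebraMap (Rinf K) F).codRestrict v.toValuationSubring.toSubring
      (Place.algebraMap_Rinf_mem v hx)
  have hb : IsIntegral (Rinf K) (b : F) := b.2
  have hint : IsIntegral v.toValuationSubring ((RingHom.id F) (b : F)) :=
    IsIntegral.map_of_comp_eq φ (RingHom.id F) (RingHom.ext fun p => rfl) hb
  obtain ⟨y, hy⟩ := (IsIntegrallyClosed.isIntegral_iff (R := v.toValuationSubring) (K := F)).mp hint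
  rw [RingHom.id_apply] at hy
  rw [← hy]
  exact y.2

section Dedekind

variable [IsDedekindDomain (Binf K F)] [IsFractionRing (Binf K F) F]
  [Algebra K (Binf K F)] [IsScalarTower K (Binf K F) F]

/-- (I1b) Poles of `x` come from primes of `Binf K F`. -/
theorem exists_hos_inf_of_ord_neg (v : Place K F) (hx : v.ord (coordX K F) < 0) :
    ∃ w : HeightOneSpectrum (Binf K F), Place.ofHeightOneSpectrum (K := K) (F := F) w = v :=
  Fermat.Agent.X0.Place.exists_ofHeightOneSpectrum_eq v (Place.Binf_mem v hx)

/-- Every prime of `Binf K F` lies over the maximal ideal `(1/X)` of `Rinf K`. -/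
theorem under_Rinf_eq_span_Xinv (w : HeightOneSpectrum (Binf K F)) :
    w.asIdeal.under (Rinf K) = Ideal.span {Xinv} := by
  have hprime : (w.asIdeal.under (Rinf K)).IsPrime := Ideal.IsPrime.under (Rinf K) w.asIdeal
  have hne : w.asIdeal.under (Rinf K) ≠ ⊥ := Ideal.IsIntegral.comap_ne_bot (Rinf K) w.ne_bot
  have hmax : (w.asIdeal.under (Rinf K)).IsMaximal := hprime.isMaximal hne
  rw [← maximalIdeal_Rinf_eq_span]
  exact IsLocalRing.eq_maximalIdeal hmax

theorem algebraMap_Binf_Xinv :
    algebraMap (Binf K F) F (algebraMap (Rinf K) (Binf K F) Xinv) = (coordX K F)⁻¹ := by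
  rw [← IsScalarTower.algebraMap_apply]
  show algebraMap (RatFunc K) F ((Xinv : Rinf K) : RatFunc K) = _
  rw [coe_Xinv, map_inv₀, algebraMap_ratFunc_X]

/-- (I2) `eOver` of a prime of `Binf K F` is the pole order of `x`. -/
theorem eOver_inf_eq_neg_ord (w : HeightOneSpectrum (Binf K F)) :
    (eOver (Rinf K) w : ℤ) =
      -(Place.ofHeightOneSpectrum (K := K) (F := F) w).ord (coordX K F) := by
  have hne : algebraMap (Rinf K) (Binf K F) Xinv ≠ 0 := by
    intro h
    have h2 := congrArg (algebraMap (Binf K F) F) h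
    rw [algebraMap_Binf_Xinv, map_zero, inv_eq_zero] at h2
    exact coordX_ne_zero_of_ratFunc h2
  rw [eOver_eq_ord (K := K) (F := F) w Xinv hne (under_Rinf_eq_span_Xinv w), algebraMap_Binf_Xinv,
    AlgebraicCurve.Place.ord_inv]

/-- (I1a) The places of primes of `Binf K F` are poles of `x`. -/
theorem ord_coordX_neg_ofHeightOneSpectrum_inf (w : HeightOneSpectrum (Binf K F)) :
    (Place.ofHeightOneSpectrum (K := K) (F := F) w).ord (coordX K F) < 0 := by
  have hmem : algebraMap (Rinf K) (Binf K F) Xinv ∈ w.asIdeal := by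
    have : Xinv ∈ w.asIdeal.under (Rinf K) := by
      rw [under_Rinf_eq_span_Xinv]
      exact Ideal.mem_span_singleton_self _
    exact this
  have hlt0 := (w.intValuation_lt_one_iff_mem _).mpr hmem
  have hlt : w.valuation F
      (algebraMap (Binf K F) F (algebraMap (Rinf K) (Binf K F) Xinv)) < 1 := by
    rw [HeightOneSpectrum.valuation_of_algebraMap]
    exact hlt0
  rw [algebraMap_Binf_Xinv] at hlt
  have hx0 : (coordX K F)⁻¹ ≠ 0 := inv_ne_zero coordX_ne_zero_of_ratFunc
  rw [valuation_eq_exp_neg_ord (K := K) w hx0, ← exp_zero, exp_lt_exp,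
    AlgebraicCurve.Place.ord_inv] at hlt
  omega

end Dedekind

end Fermat.Agent.X0.RR7
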