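import Mathlib
import Fermat.Agent.X0.Alg.DegCore
import Fermat.Agent.X0.RR7.DictAbs

/-!
# X-RR, RR7 (D1, finite part): primes of `Bf K F = integralClosure K[X] F` versus places

Coordinate context of `Alg/DegCore.lean`.  `FunctionField.ringOfIntegers K F` is (definitionally)
`RR.Bf K F`.
-/

set_option autoImplicit false

open AlgebraicCurve IsDedekindDomain WithZero Polynomial FunctionField

namespace Fermat.Agent.X0.RR7

variable {K F : Type*} [Field K] [Field F] [Algebra K F]
  [Algebra K[X] F] [Algebra (RatFunc K) F] [IsScalarTower K[X] (RatFunc K) F]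
  [IsScalarTower K K[X] F] [FunctionField K F] [Algebra.IsSeparable (RatFunc K) F]

/-- Every prime of the ring of integers lies over a point `a : K` (for `K` algebraically
closed). -/
theorem exists_liesOver_primeAt [IsAlgClosed K] (w : HeightOneSpectrum (ringOfIntegers K F)) :
    ∃ a : K, w.asIdeal.LiesOver (primeAt a).asIdeal := by
  have hprime : (w.asIdeal.under K[X]).IsPrime := Ideal.IsPrime.under K[X] w.asIdeal
  have hne : w.asIdeal.under K[X] ≠ ⊥ := by
    have : Algebra.IsIntegral K[X] (ringOfIntegers K F) := inferInstance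
    exact Ideal.IsIntegral.comap_ne_bot K[X] w.ne_bot
  obtain ⟨q, hq⟩ : ∃ q : K[X], w.asIdeal.under K[X] = Ideal.span {q} :=
    ⟨_, (Ideal.span_singleton_generator _).symm⟩
  have hq0 : q ≠ 0 := by
    rintro rfl
    apply hne
    rw [hq]
    simp
  have hqprime : Prime q := by
    rw [← Ideal.span_singleton_prime hq0, ← hq]
    exact hprime
  have hdeg := IsAlgClosed.degree_eq_one_of_irreducible K hqprime.irreducible
  obtain ⟨a, ha⟩ := Polynomial.exists_root_of_degree_eq_one hdeg
  refine ⟨a, (liesOver_primeAt_iff w a).mpr ?_⟩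
  have hdvd : X - C a ∣ q := Polynomial.dvd_iff_isRoot.mpr ha
  have hassoc : Associated (X - C a) q :=
    (irreducible_X_sub_C a).associated_of_dvd hqprime.irreducible hdvd
  have hmem : X - C a ∈ w.asIdeal.under K[X] := by
    rw [hq, Ideal.mem_span_singleton]
    exact hassoc.symm.dvd
  exact hmem

/-- The place attached to a prime of the ring of integers lies over some `a : K`. -/
theorem exists_ord_pos_ofHeightOneSpectrum [IsAlgClosed K]
    (w : HeightOneSpectrum (ringOfIntegers K F)) :
    ∃ a : K, 0 < (Place.ofHeightOneSpectrum (K := K) (F := F) w).ord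
      (coordX K F - algebraMap K F a) := by
  obtain ⟨a, ha⟩ := exists_liesOver_primeAt w
  exact ⟨a, (Place.ord_pos_iff_liesOver w a).mpr ha⟩

/-- `eOver` of a prime over `a` is the order of `x - a`. -/
theorem eOver_eq_ord_sub (w : HeightOneSpectrum (ringOfIntegers K F)) (a : K)
    (h : 0 < (Place.ofHeightOneSpectrum (K := K) (F := F) w).ord
      (coordX K F - algebraMap K F a)) :
    (RR.eOver K[X] w : ℤ) =
      (Place.ofHeightOneSpectrum (K := K) (F := F) w).ord (coordX K F - algebraMap K F a) := by
  have hlo : w.asIdeal.LiesOver (primeAt a).asIdeal := (Place.ord_pos_iff_liesOver w a).mp h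
  have hunder : w.asIdeal.under K[X] = Ideal.span {X - C a} := by
    rw [← primeAt_asIdeal]
    exact hlo.over.symm
  have hne : algebraMap K[X] (ringOfIntegers K F) (X - C a) ≠ 0 := by
    rw [Ne, map_eq_zero_iff _ (ringOfIntegers.algebraMap_injective K F)]
    exact X_sub_C_ne_zero a
  rw [eOver_eq_ord (K := K) (F := F) w (X - C a) hne hunder,
    ← IsScalarTower.algebraMap_apply, algebraMap_X_sub_C]

/-- The nonnegativity of `ord x` at places coming from the ring of integers. -/
theorem ord_coordX_nonneg_ofHeightOneSpectrum (w : HeightOneSpectrum (ringOfIntegers K F)) :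
    0 ≤ (Place.ofHeightOneSpectrum (K := K) (F := F) w).ord (coordX K F) :=
  Place.ord_nonneg_of_mem _ (Place.coordX_mem_ofHeightOneSpectrum w)

/-- Places at which `x` is integral come from primes of the ring of integers. -/
theorem exists_hos_of_ord_coordX_nonneg (v : Place K F) (h : 0 ≤ v.ord (coordX K F)) :
    ∃ w : HeightOneSpectrum (ringOfIntegers K F),
      Place.ofHeightOneSpectrum (K := K) (F := F) w = v :=
  Place.exists_prime_of_coordX_mem v (Place.mem_of_ord_nonneg v h)

end Fermat.Agent.X0.RR7
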