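import Mathlib
import Fermat.Prelude.Def_ModularCurve_LaurentCoeff

set_option autoImplicit false

/-!
# X-RR, RR7 (D3): linear independence is preserved by coefficientwise field extension

If `r i : LaurentSeries K` are linearly independent over the field `K` and `ι : K →+* L` is a ring
homomorphism into a field `L`, then the series `coeffMap ι (r i)` are linearly independent
over `L` ("soft descent" by a `K`-linear functional on `L`).
-/

namespace Fermat.Agent.X0.RR7

open ModularCurve

/-- Linear independence over `K` of families of Laurent series implies linear independence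
over `L` of the coefficientwise images. -/
theorem linearIndependent_coeffMap {K L : Type*} [Field K] [Field L] (ι : K →+* L)
    {J : Type*} (r : J → LaurentSeries K) (hr : LinearIndependent K r) :
    LinearIndependent L (fun i => coeffMap ι (r i)) := by
  classical
  letI : Algebra K L := ι.toAlgebra
  rw [linearIndependent_iff'] at hr ⊢
  intro s c hc i0 hi0
  by_contra hne
  -- a `K`-linear functional on `L` not vanishing at `c i0`
  obtain ⟨lam, hlam⟩ : ∃ lam : Module.Dual K L, lam (c i0) ≠ 0 := by
    by_contra hall
    push_neg at hall
    exact hne ((Module.forall_dual_apply_eq_zero_iff K (c i0)).mp hall)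
  have key : ∑ i ∈ s, lam (c i) • r i = 0 := by
    ext k
    have h1 := congrArg (fun x : LaurentSeries L => x.coeff k) hc
    simp only [HahnSeries.coeff_sum, HahnSeries.coeff_smul, coeffMap_coeff, smul_eq_mul,
      HahnSeries.coeff_zero] at h1
    have h2 := congrArg lam h1
    rw [map_sum, map_zero] at h2
    simp only [HahnSeries.coeff_sum, HahnSeries.coeff_smul, smul_eq_mul, HahnSeries.coeff_zero]
    rw [← h2]
    refine Finset.sum_congr rfl fun i _ => ?_
    have h3 : c i * ι ((r i).coeff k) = ((r i).coeff k) • c i := by
      rw [Algebra.smul_def, mul_comm]
      rfl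
    rw [h3, map_smul, smul_eq_mul, mul_comm]
  exact hlam (hr s (fun i => lam (c i)) key i0 hi0)

end Fermat.Agent.X0.RR7
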