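import Mathlib
import Fermat.Agent.X0.Defs
import Fermat.Agent.X0.Alg.PlaceBasic
import Fermat.Agent.X0.ACL.PlaceOfVal

set_option autoImplicit false

/-!
# X-RR, RR7 (D4, abstract part): place form of the space of holomorphic differentials `h dx`

`holDiff K x : Submodule K F` is the space of `h : F` such that `h dx` is holomorphic at every
place of `F/K`:  at a place `v` over a finite value `a` of `x`, with `e = v.ord (x - a)`,
`v.ord h ≥ -(e - 1)`; at a pole of `x` of order `e`, `v.ord h ≥ e + 1`.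

Abstract local lemmas: if `w` is any (unnormalised) valuation function on `F` trivial on `K`
(`IsValFun K w`), the place conditions transfer to `w`.
-/

namespace Fermat.Agent.X0.RR7

open AlgebraicCurve Fermat.Agent.X0

variable {K F : Type*} [Field K] [Field F] [Algebra K F]

/-- `h dx` is holomorphic at the place `v`. -/
def IsHolAt (x h : F) (v : Place K F) : Prop :=
  (∀ a : K, 0 < v.ord (x - algebraMap K F a) → 1 - v.ord (x - algebraMap K F a) ≤ v.ord h) ∧
    (v.ord x < 0 → 1 - v.ord x ≤ v.ord h)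

/-- For `h ≠ 0`: at every place the required lower bound on `v.ord h`. -/
def holBound (x : F) (v : Place K F) (n : ℤ) : Prop :=
  (∀ a : K, 0 < v.ord (x - algebraMap K F a) → 1 - v.ord (x - algebraMap K F a) ≤ n) ∧
    (v.ord x < 0 → 1 - v.ord x ≤ n)

theorem isHolAt_iff (x h : F) (v : Place K F) : IsHolAt x h v ↔ holBound x v (v.ord h) := Iff.rfl

theorem holBound_mono {x : F} {v : Place K F} {n m : ℤ} (h : holBound x v n) (hnm : n ≤ m) :
    holBound x v m :=
  ⟨fun a ha => (h.1 a ha).trans hnm, fun hx => (h.2 hx).trans hnm⟩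

variable (K) in
/-- The space of `h` with `h dx` holomorphic at all places (place form of `H⁰(Ω)`). -/
def holDiff (x : F) : Submodule K F where
  carrier := {h | h = 0 ∨ ∀ v : Place K F, IsHolAt x h v}
  zero_mem' := Or.inl rfl
  add_mem' := by
    rintro f g hf hg
    rcases hf with rfl | hf
    · simpa using hg
    rcases hg with rfl | hg
    · simpa using Or.inr hf
    by_cases hfg : f + g = 0
    · exact Or.inl hfg
    by_cases hf0 : f = 0
    · subst hf0; simpa using Or.inr hg
    by_cases hg0 : g = 0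
    · subst hg0; simpa using Or.inr hf
    refine Or.inr fun v => ?_
    have hmin := Place.min_le_ord_add v hf0 hg0 hfg
    rcases min_choice (v.ord f) (v.ord g) with h | h
    · rw [h] at hmin
      exact holBound_mono (hf v) hmin
    · rw [h] at hmin
      exact holBound_mono (hg v) hmin
  smul_mem' := by
    rintro c f hf
    rcases hf with rfl | hf
    · left; simp
    by_cases hc : c = 0
    · left; simp [hc]
    by_cases hf0 : f = 0
    · left; simp [hf0]
    refine Or.inr fun v => ?_
    have hc' : algebraMap K F c ≠ 0 := by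
      simpa using hc
    have : v.ord (c • f) = v.ord f := by
      rw [Algebra.smul_def, v.ord_mul hc' hf0, Fermat.Agent.X0.Place.ord_algebraMap, zero_add]
    rw [isHolAt_iff, this]
    exact hf v

theorem mem_holDiff_iff {x h : F} :
    h ∈ holDiff K x ↔ h = 0 ∨ ∀ v : Place K F, IsHolAt x h v := Iff.rfl

theorem isHolAt_of_mem_holDiff {x h : F} (hh : h ∈ holDiff K x) (h0 : h ≠ 0) (v : Place K F) :
    IsHolAt x h v := by
  rcases hh with rfl | hh
  · exact absurd rfl h0
  · exact hh v

/-! ### Transfer to arbitrary valuation functions -/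

section Transfer

variable {w : F → ℤ} (hw : IsValFun K w)
include hw

/-- Finite case: if `w (x - a) = e₀ > 0` then `w h ≥ 1 - e₀` for `h ∈ holDiff K x`. -/
theorem le_of_mem_holDiff_fin {x h : F} (hh : h ∈ holDiff K x) (h0 : h ≠ 0) (a : K)
    (hxa0 : x - algebraMap K F a ≠ 0) (hpos : 0 < w (x - algebraMap K F a)) :
    1 - w (x - algebraMap K F a) ≤ w h := by
  obtain ⟨m, t, hm, -, -, -, hmul⟩ := hw.exists_eq_mul_ord hxa0 hpos
  set v := hw.place hxa0 hpos
  have hvpos : 0 < v.ord (x - algebraMap K F a) := hw.place_ord_pos hxa0 hpos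
  have hhol := (isHolAt_of_mem_holDiff hh h0 v).1 a hvpos
  rw [hmul h h0, hmul _ hxa0]
  nlinarith

/-- Infinite case: if `w x = -e₀ < 0` then `w h ≥ e₀ + 1` for `h ∈ holDiff K x`. -/
theorem le_of_mem_holDiff_inf {x h : F} (hh : h ∈ holDiff K x) (h0 : h ≠ 0)
    (hx0 : x ≠ 0) (hneg : w x < 0) :
    1 - w x ≤ w h := by
  have hxi0 : x⁻¹ ≠ 0 := inv_ne_zero hx0
  have hpos : 0 < w x⁻¹ := by rw [hw.map_inv hx0]; omega
  obtain ⟨m, t, hm, -, -, -, hmul⟩ := hw.exists_eq_mul_ord hxi0 hpos
  set v := hw.place hxi0 hpos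
  have hvpos : 0 < v.ord x⁻¹ := hw.place_ord_pos hxi0 hpos
  rw [v.ord_inv] at hvpos
  have hhol := (isHolAt_of_mem_holDiff hh h0 v).2 (by omega)
  rw [hmul h h0, hmul _ hx0]
  nlinarith

/-- Generic case: if `w` is nonnegative at `x` and vanishes at all `x - a`, and every place where
`x` is integral lies over some `a : K`, then `w` is trivial. -/
theorem eq_zero_of_generic {x : F}
    (hval : ∀ v : Place K F, 0 ≤ v.ord x → ∃ a : K, 0 < v.ord (x - algebraMap K F a))
    (hx0 : x ≠ 0) (hx : 0 ≤ w x)
    (hxa0 : ∀ a : K, x - algebraMap K F a ≠ 0)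
    (hxa : ∀ a : K, w (x - algebraMap K F a) ≤ 0) {f : F} (hf : f ≠ 0) : w f = 0 := by
  by_contra hne
  -- a function with positive value
  obtain ⟨g, hg0, hgpos⟩ : ∃ g : F, g ≠ 0 ∧ 0 < w g := by
    rcases lt_or_gt_of_ne hne with h | h
    · exact ⟨f⁻¹, inv_ne_zero hf, by rw [hw.map_inv hf]; omega⟩
    · exact ⟨f, hf, h⟩
  obtain ⟨m, t, hm, -, -, -, hmul⟩ := hw.exists_eq_mul_ord hg0 hgpos
  set v := hw.place hg0 hgpos
  have h1 : 0 ≤ v.ord x := by
    have := hmul x hx0
    rw [this] at hx
    exact (mul_nonneg_iff_of_pos_left hm).mp hx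
  obtain ⟨a, ha⟩ := hval v h1
  have h2 := hmul _ (hxa0 a)
  have h3 := hxa a
  rw [h2] at h3
  have : 0 < m * v.ord (x - algebraMap K F a) := mul_pos hm ha
  omega

end Transfer

end Fermat.Agent.X0.RR7
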