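import Mathlib
import Fermat.Agent.X0.Psi
import Fermat.Agent.X0.ModVal
import Fermat.Agent.X0.Alg.AffineModel
import Fermat.Agent.X0.RR7.HolDiffDef

set_option autoImplicit false

/-!
# X-RR, RR7 (D4, finite part): local orders at the points of the upper half plane

For `h ∈ holDiff Kb (jBar N)`, `h = a / b` with `a b ∈ Rb N`:
`ordAt (Psi N b) z ≤ ordAt (Psi N a * D jFun) z` at every `z : ℍ`.
-/

namespace Fermat.Agent.X0.RR7

open AlgebraicCurve Fermat.Agent.X0 UpperHalfPlane ModularForm Derivative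
open scoped MatrixGroups ModularForm Manifold

/-- Every place at which `x` is integral lies over a value `a : K` of `x`. -/
theorem exists_ord_sub_pos {K F : Type*} [Field K] [Field F] [Algebra K F] [IsAlgClosed K]
    [CharZero K] {x : F} {n : ℕ} (hx : IsSepVar K x n) (v : Place K F) (h : 0 ≤ v.ord x) :
    ∃ a : K, 0 < v.ord (x - algebraMap K F a) := by
  obtain ⟨c, hc⟩ := Place.exists_adicValuation_sub_lt_one hx v (Place.mem_of_ord_nonneg v h)
  refine ⟨c, ?_⟩
  have hne : x - algebraMap K F c ≠ 0 := by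
    intro h0
    apply hx.transcendental
    rw [sub_eq_zero] at h0
    rw [h0]
    exact (isAlgebraic_algebraMap c)
  rw [Place.adicValuation_eq_exp_neg_ord v hne, ← WithZero.exp_zero, WithZero.exp_lt_exp] at hc
  omega

variable (N : ℕ) [NeZero N]

/-- The valuation function on `Fb N` given by the order at `z` through `Psi N`. -/
noncomputable def wPt (z : ℍ) : Fb N → ℤ := ordAtPt (R := Rb N) (Psi N) z

theorem wPt_div (z : ℍ) {a b : Rb N} (ha : a ≠ 0) (hb : b ≠ 0) :
    wPt N z ((a : Fb N) / (b : Fb N)) = (ordH (Psi N a) z : ℤ) - (ordH (Psi N b) z : ℤ) :=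
  ordAtPt_div (F := Fb N) (Psi_injective N) (Psi_mdiff N) z ha hb

theorem wPt_coe (z : ℍ) {a : Rb N} (ha : a ≠ 0) :
    wPt N z (a : Fb N) = (ordH (Psi N a) z : ℤ) :=
  ordAtPt_algebraMap (F := Fb N) (Psi_injective N) (Psi_mdiff N) z ha

theorem isValFun_wPt (z : ℍ) : IsValFun Kb (wPt N z) where
  map_mul f g hf hg := ordAtPt_mul (Psi_injective N) (Psi_mdiff N) z hf hg
  map_add f g hf hg hfg := ordAtPt_add (Psi_injective N) (Psi_mdiff N) z hf hg hfg
  map_const c hc := by
    have h1 : algebraMap Kb (Fb N) c = algebraMap (Rb N) (Fb N) (algebraMap Kb (Rb N) c) := rfl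
    rw [h1]
    exact ordAtPt_algebraMap_of_const (F := Fb N) (Psi_injective N) (Psi_mdiff N) z
      (c := iotaC c) (by simpa using hc) (Psi_algebraMap N c)

/-- `jBar - c` as an element of `Rb N`. -/
noncomputable def jSubR (c : Kb) : Rb N := ⟨jBar N, jBar_mem_Rb N⟩ - algebraMap Kb (Rb N) c

theorem coe_jSubR (c : Kb) : ((jSubR N c : Rb N) : Fb N) = jBar N - algebraMap Kb (Fb N) c := rfl

theorem Psi_jSubR (c : Kb) : Psi N (jSubR N c) = fun w => jFun w - iotaC c := by
  unfold jSubR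
  rw [map_sub, Psi_jBar_eq_jFun, Psi_algebraMap]
  rfl

theorem jFun_sub_const_ne_zero (c : ℂ) : (fun w => jFun w - c) ≠ 0 := by
  intro h
  obtain ⟨w, hw⟩ := jFun_surjective (c + 1)
  have := congrFun h w
  simp only [Pi.zero_apply] at this
  rw [hw] at this
  simp at this

theorem jSubR_ne_zero (c : Kb) : jSubR N c ≠ 0 := by
  intro h
  have := Psi_jSubR N c
  rw [h, map_zero] at this
  exact jFun_sub_const_ne_zero (iotaC c) this.symm

theorem jBar_sub_ne_zero (c : Kb) : jBar N - algebraMap Kb (Fb N) c ≠ 0 := by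
  rw [← coe_jSubR]
  intro h
  exact jSubR_ne_zero N c (by exact_mod_cast h)

theorem jBar_ne_zero' : jBar N ≠ 0 := by
  have := jBar_sub_ne_zero N 0
  simpa using this

theorem mdiff_jFun_sub_const (c : ℂ) : MDiff (fun w => jFun w - c) :=
  jFun_mdiff.sub mdifferentiable_const

theorem wPt_jBar_sub (z : ℍ) (c : Kb) :
    wPt N z (jBar N - algebraMap Kb (Fb N) c) = (ordH (fun w => jFun w - iotaC c) z : ℤ) := by
  rw [← coe_jSubR, wPt_coe N z (jSubR_ne_zero N c), Psi_jSubR]

theorem wPt_jBar_sub_of_ne (z : ℍ) (c : Kb) (hc : jFun z ≠ iotaC c) :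
    wPt N z (jBar N - algebraMap Kb (Fb N) c) = 0 := by
  rw [wPt_jBar_sub]
  have := (ordH_eq_zero_iff (mdiff_jFun_sub_const (iotaC c)) (jFun_sub_const_ne_zero _) z).mpr
    (sub_ne_zero.mpr hc)
  exact_mod_cast this

/-- `ordH (jFun - jFun z) z = ordH (D jFun) z + 1`. -/
theorem ordH_jFun_sub_self (z : ℍ) :
    ordH (fun w => jFun w - jFun z) z = ordH (D jFun) z + 1 := by
  have h1 := ordAt_D_add_one jFun_mdiff z
  have hD0 : D jFun ≠ 0 := by
    intro h
    have h2 : ordAt (D jFun) z = ⊤ := by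
      rw [h]
      unfold ordAt
      rw [analyticOrderAt_eq_top]
      exact Filter.Eventually.of_forall fun _ => rfl
    rw [h2] at h1
    exact ordAt_ne_top (mdiff_jFun_sub_const (jFun z)) (jFun_sub_const_ne_zero _) z h1.symm
  rw [← natCast_ordH_eq_ordAt D_jFun_mdiff hD0 z,
    ← natCast_ordH_eq_ordAt (mdiff_jFun_sub_const (jFun z)) (jFun_sub_const_ne_zero _) z] at h1
  exact_mod_cast h1.symm

theorem D_jFun_ne_zero : D jFun ≠ 0 := by
  intro h
  have h1 := ordAt_D_add_one jFun_mdiff UpperHalfPlane.I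
  have h2 : ordAt (D jFun) UpperHalfPlane.I = ⊤ := by
    rw [h]
    unfold ordAt
    rw [analyticOrderAt_eq_top]
    exact Filter.Eventually.of_forall fun _ => rfl
  rw [h2] at h1
  exact ordAt_ne_top (mdiff_jFun_sub_const (jFun UpperHalfPlane.I)) (jFun_sub_const_ne_zero _)
    UpperHalfPlane.I h1.symm

/-- **Local holomorphy**: for `h = a / b ∈ holDiff`, the zeros of `Psi b` are dominated by those
of `Psi a * D jFun`. -/
theorem ordH_le_of_mem_holDiff {n : ℕ} (hx : IsSepVar Kb (jBar N) n) {h : Fb N}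
    (hh : h ∈ holDiff Kb (jBar N)) {a b : Rb N} (ha : a ≠ 0) (hb : b ≠ 0)
    (hab : h = (a : Fb N) / (b : Fb N)) (z : ℍ) :
    ordH (Psi N b) z ≤ ordH (Psi N a) z + ordH (D jFun) z := by
  have ha' : (a : Fb N) ≠ 0 := by exact_mod_cast ha
  have hb' : (b : Fb N) ≠ 0 := by exact_mod_cast hb
  have h0 : h ≠ 0 := by rw [hab]; exact div_ne_zero ha' hb'
  have hw := isValFun_wPt N z
  have hWh : wPt N z h = (ordH (Psi N a) z : ℤ) - (ordH (Psi N b) z : ℤ) := by
    rw [hab]; exact wPt_div N z ha hb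
  by_cases hex : ∃ c : Kb, jFun z = iotaC c
  · obtain ⟨c, hc⟩ := hex
    have h1 : wPt N z (jBar N - algebraMap Kb (Fb N) c) = (ordH (D jFun) z : ℤ) + 1 := by
      rw [wPt_jBar_sub, ← hc, ordH_jFun_sub_self]
      push_cast
      rfl
    have h2 := le_of_mem_holDiff_fin hw hh h0 c (jBar_sub_ne_zero N c) (by rw [h1]; positivity)
    rw [h1, hWh] at h2
    omega
  · push Not at hex
    have h1 : wPt N z h = 0 := by
      refine eq_zero_of_generic hw (fun v hv => exists_ord_sub_pos hx v hv) (jBar_ne_zero' N) ?_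
        (jBar_sub_ne_zero N) (fun c => ?_) h0
      · have := wPt_jBar_sub N z 0
        simp only [map_zero, sub_zero] at this
        rw [this]
        positivity
      · rw [wPt_jBar_sub_of_ne N z c (hex c)]
    rw [hWh] at h1
    omega

/-- `ordAt` version. -/
theorem ordAt_le_of_mem_holDiff {n : ℕ} (hx : IsSepVar Kb (jBar N) n) {h : Fb N}
    (hh : h ∈ holDiff Kb (jBar N)) {a b : Rb N} (hb : b ≠ 0)
    (hab : h = (a : Fb N) / (b : Fb N)) (z : ℍ) :
    ordAt (Psi N b) z ≤ ordAt (Psi N a * D jFun) z := by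
  by_cases ha : a = 0
  · subst ha
    rw [map_zero, zero_mul]
    have : ordAt (0 : ℍ → ℂ) z = ⊤ := by
      unfold ordAt
      rw [analyticOrderAt_eq_top]
      exact Filter.Eventually.of_forall fun _ => rfl
    rw [this]
    exact le_top
  · have hPa : Psi N a ≠ 0 := map_ne_zero_of_injective (Psi_injective N) ha
    have hPb : Psi N b ≠ 0 := map_ne_zero_of_injective (Psi_injective N) hb
    rw [ordAt_mul (Psi_mdiff N a) D_jFun_mdiff, ← natCast_ordH_eq_ordAt (Psi_mdiff N a) hPa,
      ← natCast_ordH_eq_ordAt (Psi_mdiff N b) hPb,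
      ← natCast_ordH_eq_ordAt D_jFun_mdiff D_jFun_ne_zero]
    exact_mod_cast ordH_le_of_mem_holDiff N hx hh ha hb hab z

end Fermat.Agent.X0.RR7
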