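import Mathlib
import Fermat.Agent.X0.Psi
import Fermat.Agent.X0.S21.Final
import Fermat.Agent.S23.Interp
import Fermat.Agent.X0.RR7.IotaIndep
import Fermat.Agent.X0.RR7.LocalFin

set_option autoImplicit false

/-!
# X-RR, RR7: counting cusp forms attached to a `Kb`-space of functions

If every `h` in a `Kb`-subspace `H ⊆ Fb N` has a weight-2 cusp form `f` with
`Psi b * f = Psi a * D jFun` for some representation `h = a / b`, then
`finrank Kb H ≤ finrank ℂ S₂(Γ₀(N))`.
-/

namespace Fermat.Agent.X0.RR7

open AlgebraicCurve Fermat.Agent.X0 UpperHalfPlane ModularForm Derivative ModularCurve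
  CongruenceSubgroup
open scoped MatrixGroups ModularForm Manifold

variable (N : ℕ) [NeZero N]

/-- `h` is represented by a weight-2 cusp form: `f = Psi(h) * D jFun`. -/
def HasCuspFormOf (h : Fb N) : Prop :=
  ∃ (a b : Rb N) (f : CuspForm (Gamma0 N) 2), b ≠ 0 ∧ h = (a : Fb N) / (b : Fb N) ∧
    ∀ z : ℍ, Psi N b z * f z = Psi N a z * D jFun z

/-- Evaluation of cusp forms at a point, as a linear map. -/
noncomputable def evalCusp (z : ℍ) : CuspForm (Gamma0 N) 2 →ₗ[ℂ] ℂ where
  toFun f := f z
  map_add' f g := rfl
  map_smul' c f := rfl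

theorem finrank_le_of_hasCuspFormOf (H : Submodule Kb (Fb N))
    (hex : ∀ h ∈ H, HasCuspFormOf N h) :
    Module.finrank Kb H ≤ Module.finrank ℂ (CuspForm (Gamma0 N) 2) := by
  classical
  by_cases hfin : Module.Finite Kb H
  swap
  · rw [Module.finrank_of_not_finite hfin]; exact Nat.zero_le _
  set d := Module.finrank Kb H with hd
  let β : Module.Basis (Fin d) Kb H := Module.finBasis Kb H
  choose a b f hb hab hf using fun i => hex (β i) (β i).2
  have hS2 := Fermat.Agent.X0.S21.finiteDimensional_cuspForm_two N
  suffices hli : LinearIndependent ℂ f by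
    have := hli.fintype_card_le_finrank
    simpa using this
  rw [Fintype.linearIndependent_iff]
  intro c hc
  -- common denominator
  set btot : Rb N := ∏ k, b k with hbtot
  set bhat : Fin d → Rb N := fun i => ∏ k ∈ Finset.univ.erase i, b k with hbhat
  have hbb : ∀ i, b i * bhat i = btot := fun i =>
    Finset.mul_prod_erase Finset.univ b (Finset.mem_univ i)
  set r : Fin d → Rb N := fun i => a i * bhat i with hr
  have hbtot0 : btot ≠ 0 := Finset.prod_ne_zero_iff.mpr fun i _ => hb i
  have key1 : ∀ i z, Psi N btot z * f i z = Psi N (r i) z * D jFun z := by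
    intro i z
    rw [← hbb i, hr]
    simp only [map_mul, Pi.mul_apply]
    have := hf i z
    linear_combination (Psi N (bhat i) z) * this
  -- the combination of the `Psi (r i)` in the subring of functions meromorphic at the cusp
  set T : merCuspSubring := ∑ i, (⟨fun _ => c i, isMerCusp_const (c i)⟩ : merCuspSubring) *
    ⟨Psi N (r i), isMerCusp_Psi N (r i)⟩ with hT
  have hTval : ∀ z, (T : ℍ → ℂ) z = ∑ i, c i * Psi N (r i) z := by
    intro z
    rw [hT, AddSubmonoidClass.coe_finsetSum]
    simp only [Finset.sum_apply, Subring.coe_mul, Pi.mul_apply]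
  have hTJ : (T : ℍ → ℂ) * D jFun = 0 := by
    funext z
    simp only [Pi.mul_apply, Pi.zero_apply, hTval, Finset.sum_mul]
    have h1 : ∀ i, c i * Psi N (r i) z * D jFun z = Psi N btot z * (c i * f i z) := by
      intro i
      rw [mul_assoc, ← key1 i z]
      ring
    simp only [h1, ← Finset.mul_sum]
    have h2 := congrArg (evalCusp N z) hc
    rw [map_sum, map_zero] at h2
    simp only [map_smul, smul_eq_mul] at h2
    have h3 : ∀ i, evalCusp N z (f i) = f i z := fun i => rfl
    simp only [h3] at h2
    rw [h2, mul_zero]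
  have hT0 : T = 0 := by
    rcases Fermat.Agent.S23.mdiff_mul_eq_zero (IsMerCusp.mdiff T.2) D_jFun_mdiff hTJ with h | h
    · exact Subtype.ext h
    · exact absurd h D_jFun_ne_zero
  have hq : ∑ i, c i • coeffMap iotaC (((r i : Rb N) : Fb N) : LaurentSeries Kb) = 0 := by
    have h1 := congrArg qexpLHom hT0
    rw [map_zero, hT, map_sum] at h1
    simp only [map_mul, qexpLHom_apply, qexpL_const, qexpL_Psi] at h1
    rw [← h1]
    refine Finset.sum_congr rfl fun i _ => ?_
    rw [HahnSeries.C_mul_eq_smul]
  -- linear independence of the `r i`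
  have hbtot0' : ((btot : Rb N) : Fb N) ≠ 0 := by exact_mod_cast hbtot0
  have hri : ∀ i, ((r i : Rb N) : Fb N) = ((β i : H) : Fb N) * ((btot : Rb N) : Fb N) := by
    intro i
    have hbi : ((b i : Rb N) : Fb N) ≠ 0 := by exact_mod_cast hb i
    have h1 : ((a i : Rb N) : Fb N) = ((β i : H) : Fb N) * ((b i : Rb N) : Fb N) := by
      rw [hab i]; field_simp
    rw [← hbb i, hr]
    push_cast
    rw [h1]
    ring
  have hind : LinearIndependent Kb
      (fun i => ((((r i : Rb N) : Fb N)) : LaurentSeries Kb)) := by
    have h1 : LinearIndependent Kb (fun i => ((β i : H) : Fb N)) :=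
      β.linearIndependent.map' H.subtype (Submodule.ker_subtype H)
    have h2 : LinearIndependent Kb (fun i => ((β i : H) : Fb N) * ((btot : Rb N) : Fb N)) := by
      refine h1.map' (LinearMap.mulRight Kb ((btot : Rb N) : Fb N)) ?_
      rw [LinearMap.ker_eq_bot]
      exact mul_left_injective₀ hbtot0'
    rw [Fintype.linearIndependent_iff] at h2 ⊢
    intro g hg
    apply h2 g
    apply Subtype.val_injective
    show ((∑ i, g i • (((β i : H) : Fb N) * ((btot : Rb N) : Fb N)) : Fb N) :
        LaurentSeries Kb) = 0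
    rw [← hg]
    have hcoe : ∀ (t : Kb) (y : Fb N), ((t • y : Fb N) : LaurentSeries Kb) =
        t • (y : LaurentSeries Kb) := by
      intro t y
      rw [Algebra.smul_def, ← HahnSeries.C_mul_eq_smul]
      push_cast
      congr 1
      exact ModularCurve.algebraMap_laurentSeries_eq_single Kb t
    have h4 : ((∑ i, g i • (((β i : H) : Fb N) * ((btot : Rb N) : Fb N)) : Fb N) :
        LaurentSeries Kb) = ∑ i, ((g i • (((β i : H) : Fb N) * ((btot : Rb N) : Fb N)) : Fb N) :
          LaurentSeries Kb) := AddSubmonoidClass.coe_finsetSum _ _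
    rw [h4]
    refine Finset.sum_congr rfl fun i _ => ?_
    rw [hcoe, hri i]
  have := linearIndependent_coeffMap iotaC _ hind
  rw [Fintype.linearIndependent_iff] at this
  exact this c hq

end Fermat.Agent.X0.RR7
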