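import Mathlib
import Fermat.Agent.X0.Cusp
import Fermat.Agent.X0.JLocal
import Fermat.Agent.X0.ModVal
import Fermat.Agent.S23.Interp

set_option autoImplicit false

/-!
# X-RR, RR7: auxiliary analytic lemmas for the construction of cusp forms

* `rr7_hasOrdInf_of_mul_eq` : orders at `i∞` of a holomorphic quotient;
* `rr7_isZeroAtImInfty_of_hasOrdInf` : positive order ⇒ zero at `i∞`;
* `rr7_hasOrdInf_D_jFun` : `D j` has order `-N` in `q_N`;
* `rr7_slash_eq_of_mul_eq` : weight-2 invariance of `G` from `B * G = A * J`;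
* `rr7_mkCusp` : packaging of a weight-2 cusp form on `Γ₀(N)`.
-/

namespace Fermat.Agent.X0.RR7

open Fermat.Agent.X0 UpperHalfPlane ModularForm Derivative CongruenceSubgroup Filter Topology
open scoped MatrixGroups ModularForm Manifold

local notation "Δ" => ModularForm.discriminant

variable {N : ℕ}

/-- If `B * G = A` and `A`, `B` have orders `kA`, `kB` at `i∞`, then `G` has order `kA - kB`. -/
theorem rr7_hasOrdInf_of_mul_eq {A B G : ℍ → ℂ} {kA kB : ℤ} (hA : HasOrdInf N A kA)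
    (hB : HasOrdInf N B kB) (h : B * G = A) : HasOrdInf N G (kA - kB) := by
  obtain ⟨LA, hLA, hAt⟩ := hA
  obtain ⟨LB, hLB, hBt⟩ := hB
  refine ⟨LA / LB, div_ne_zero hLA hLB, ?_⟩
  have hev : ∀ᶠ z in atImInfty, B z * qN N z ^ (-kB) ≠ 0 := hBt.eventually_ne hLB
  refine (hAt.div hBt hLB).congr' ?_
  filter_upwards [hev] with z hz
  have hq : qN N z ≠ 0 := qN_ne_zero N z
  have hBz : B z ≠ 0 := by
    intro h0
    apply hz
    rw [h0, zero_mul]
  have hAz : A z = B z * G z := by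
    rw [← h]; rfl
  simp only [Pi.div_apply]
  rw [hAz, neg_sub, zpow_sub₀ hq, zpow_neg, zpow_neg]
  field_simp

theorem rr7_isZeroAtImInfty_of_hasOrdInf [NeZero N] {G : ℍ → ℂ} {k : ℤ} (h : HasOrdInf N G k)
    (hk : 0 < k) : IsZeroAtImInfty G := by
  have := h.tendsto_zero_of_lt hk
  simpa [IsZeroAtImInfty, ZeroAtFilter] using this

theorem rr7_hasOrdInf_D_jFun (N : ℕ) [NeZero N] : HasOrdInf N (D jFun) (-(N : ℤ)) := by
  have h1 : HasOrdInf N (-((E₄ : ℍ → ℂ) ^ 2 * (E₆ : ℍ → ℂ)) / Δ) (-(N : ℤ)) := by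
    have := (((hasOrdInf_E₄ N).pow 2).mul (hasOrdInf_E₆ N)).neg.div (hasOrdInf_discriminant N)
    simpa using this
  refine h1.congr ?_
  funext z
  rw [D_jFun]
  simp

/-- Weight-2 invariance of `G` from the relation `B * G = A * J`. -/
theorem rr7_slash_eq_of_mul_eq {A B G J : ℍ → ℂ} (hB : MDiff B) (hB0 : B ≠ 0) (hG : MDiff G)
    (hrel : ∀ z, B z * G z = A z * J z) (γ : SL(2, ℤ))
    (hAγ : ∀ z, A (γ • z) = A z) (hBγ : ∀ z, B (γ • z) = B z)
    (hJγ : J ∣[(2 : ℤ)] γ = J) : G ∣[(2 : ℤ)] γ = G := by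
  have hG' : MDiff (G ∣[(2 : ℤ)] γ) := hG.slash 2 _
  apply Fermat.Agent.S23.mdiff_mul_right_cancel hG' hG hB hB0
  funext z
  simp only [Pi.mul_apply, ModularForm.SL_slash_apply]
  have hJz : J (γ • z) * denom γ z ^ (-(2 : ℤ)) = J z := by
    have := congrFun hJγ z
    rwa [ModularForm.SL_slash_apply] at this
  have h1 := hrel (γ • z)
  rw [hBγ, hAγ] at h1
  have h2 := hrel z
  calc G (γ • z) * denom γ z ^ (-(2 : ℤ)) * B z
      = (B z * G (γ • z)) * denom γ z ^ (-(2 : ℤ)) := by ring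
    _ = A z * (J (γ • z) * denom γ z ^ (-(2 : ℤ))) := by rw [h1]; ring
    _ = A z * J z := by rw [hJz]
    _ = G z * B z := by rw [← h2]; ring

/-- Packaging: a holomorphic weight-2 `Γ₀(N)`-invariant function vanishing at all cusps is a cusp
form. -/
noncomputable def rr7_mkCusp (N : ℕ) [NeZero N] (G : ℍ → ℂ) (hG : MDiff G)
    (hinv : ∀ γ ∈ Gamma0 N, G ∣[(2 : ℤ)] γ = G)
    (hzero : ∀ γ : SL(2, ℤ), IsZeroAtImInfty (G ∣[(2 : ℤ)] γ)) : CuspForm (Gamma0 N) 2 where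
  toFun := G
  slash_action_eq' := by
    rintro _ ⟨γ, hγ, rfl⟩
    exact hinv γ hγ
  holo' := hG
  zero_at_cusps' := by
    intro c hc
    rw [Subgroup.IsArithmetic.isCusp_iff_isCusp_SL2Z] at hc
    rw [OnePoint.isZeroAt_iff_forall_SL2Z hc]
    intro σ _
    exact hzero σ

@[simp] theorem rr7_mkCusp_apply (N : ℕ) [NeZero N] (G : ℍ → ℂ) (hG : MDiff G)
    (hinv : ∀ γ ∈ Gamma0 N, G ∣[(2 : ℤ)] γ = G)
    (hzero : ∀ γ : SL(2, ℤ), IsZeroAtImInfty (G ∣[(2 : ℤ)] γ)) (z : ℍ) :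
    rr7_mkCusp N G hG hinv hzero z = G z := rfl

end Fermat.Agent.X0.RR7
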