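import Mathlib
import Fermat.Agent.X0.JLocal

set_option autoImplicit false

/-!
# X-RR, RR7 (D2): division of holomorphic functions on the upper half plane

If `A B : ℍ → ℂ` are holomorphic, `B ≠ 0` and `ordAt B z ≤ ordAt A z` at every point, then
`A = B * G` with `G` holomorphic.
-/

namespace Fermat.Agent.X0.RR7

open UpperHalfPlane Function
open scoped Manifold Topology

/-- **Division lemma**: if the zeros of `B` are dominated by those of `A`, then `A = B * G`
with `G` holomorphic on the upper half plane. -/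
theorem exists_mdiff_mul_eq {A B : ℍ → ℂ} (hA : MDiff A) (hB : MDiff B) (hB0 : B ≠ 0)
    (hord : ∀ z : ℍ, ordAt B z ≤ ordAt A z) :
    ∃ G : ℍ → ℂ, MDiff G ∧ A = B * G := by
  classical
  set U : Set ℂ := {z : ℂ | 0 < z.im} with hU
  have hUo : IsOpen U := isOpen_upperHalfPlaneSet
  set a : ℂ → ℂ := A ∘ ofComplex with ha
  set b : ℂ → ℂ := B ∘ ofComplex with hb
  have haA : ∀ x ∈ U, AnalyticAt ℂ a x := fun x hx =>
    analyticAt_comp_ofComplex hA ⟨x, hx⟩
  have hbA : ∀ x ∈ U, AnalyticAt ℂ b x := fun x hx =>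
    analyticAt_comp_ofComplex hB ⟨x, hx⟩
  set f : ℂ → ℂ := a / b with hf
  have hfM : MeromorphicOn f U := fun x hx =>
    (haA x hx).meromorphicAt.div (hbA x hx).meromorphicAt
  set g : ℂ → ℂ := toMeromorphicNFOn f U with hg
  have hgNF : MeromorphicNFOn g U := meromorphicNFOn_toMeromorphicNFOn f U
  -- orders
  have hbtop : ∀ x (hx : x ∈ U), analyticOrderAt b x ≠ ⊤ := fun x hx =>
    ordAt_ne_top hB hB0 ⟨x, hx⟩
  have hordf : ∀ x ∈ U, 0 ≤ meromorphicOrderAt f x := by
    intro x hx
    have h1 : meromorphicOrderAt f x = meromorphicOrderAt a x - meromorphicOrderAt b x := by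
      rw [hf, div_eq_mul_inv, meromorphicOrderAt_mul (haA x hx).meromorphicAt
        (hbA x hx).meromorphicAt.inv, meromorphicOrderAt_inv, sub_eq_add_neg]
    rw [h1, (haA x hx).meromorphicOrderAt_eq, (hbA x hx).meromorphicOrderAt_eq]
    have h2 : analyticOrderAt b x ≤ analyticOrderAt a x := hord ⟨x, hx⟩
    obtain ⟨n, hn⟩ := ENat.ne_top_iff_exists.mp (hbtop x hx)
    rw [← hn] at h2 ⊢
    by_cases hatop : analyticOrderAt a x = ⊤
    · rw [hatop]
      simp
    · obtain ⟨m, hm⟩ := ENat.ne_top_iff_exists.mp hatop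
      rw [← hm] at h2 ⊢
      have h3 : n ≤ m := by exact_mod_cast h2
      simp only [ENat.map_natCast]
      have h4 : (0 : ℤ) ≤ (m : ℤ) - (n : ℤ) := by omega
      have h5 : (((m : ℤ) : WithTop ℤ)) - ((n : ℤ) : WithTop ℤ) =
          (((m : ℤ) - (n : ℤ) : ℤ) : WithTop ℤ) := rfl
      rw [h5]
      exact_mod_cast h4
  have hgA : ∀ x ∈ U, AnalyticAt ℂ g x := by
    intro x hx
    rw [← (hgNF hx).meromorphicOrderAt_nonneg_iff_analyticAt,
      meromorphicOrderAt_toMeromorphicNFOn hfM hx]
    exact hordf x hx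
  refine ⟨fun z => g z, ?_, ?_⟩
  · rw [UpperHalfPlane.mdifferentiable_iff]
    have : DifferentiableOn ℂ g U := fun x hx => (hgA x hx).differentiableAt.differentiableWithinAt
    refine this.congr ?_
    intro x hx
    simp [Function.comp, ofComplex_apply_of_im_pos hx]
  · funext z
    have hz : (z : ℂ) ∈ U := z.im_pos
    have haz : a z = A z := by simp [ha, ofComplex_apply]
    have hbz : b z = B z := by simp [hb, ofComplex_apply]
    simp only [Pi.mul_apply]
    by_cases hBz : B z = 0
    · have h1 : ordAt B z ≠ 0 := fun h => ((ordAt_eq_zero_iff hB z).mp h) hBz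
      have h2 : ordAt A z ≠ 0 := by
        intro h
        have := hord z
        rw [h] at this
        exact h1 (le_antisymm this bot_le)
      have h3 : A z = 0 := by
        by_contra h
        exact h2 ((ordAt_eq_zero_iff hA z).mpr h)
      rw [h3, hBz, zero_mul]
    · have hfA : AnalyticAt ℂ f z := by
        rw [hf]
        exact (haA z hz).div (hbA z hz) (by rw [hbz]; exact hBz)
      have h1 : g z = f z := by
        rw [hg, toMeromorphicNFOn_eq_toMeromorphicNFAt hfM hz,
          toMeromorphicNFAt_eq_self.2 hfA.meromorphicNFAt]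
      rw [h1, hf]
      simp only [Pi.div_apply, haz, hbz]
      field_simp

end Fermat.Agent.X0.RR7
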