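import Mathlib
import Fermat.Agent.X0.ValInfPsi
import Fermat.Agent.X0.RR7.HolDiffDef
import Fermat.Agent.X0.RR7.LocalFin

set_option autoImplicit false

/-!
# X-RR, RR7 (D4, cusp part): orders at the cusps

For `h ∈ holDiff Kb (jBar N)`, `h ≠ 0`: `N + 1 ≤ wInf N c h` for every coset `c`, i.e. for
`h = a / b` the `q_N`-orders at `i∞` of the conjugates satisfy
`ordInf (Psi a ∘ γ) - ordInf (Psi b ∘ γ) ≥ N + 1`.
-/

namespace Fermat.Agent.X0.RR7

open AlgebraicCurve Fermat.Agent.X0 UpperHalfPlane ModularForm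
open scoped MatrixGroups ModularForm Manifold

variable (N : ℕ) [NeZero N]

theorem isValFun_wInf (c : SL(2, ℤ) ⧸ CongruenceSubgroup.Gamma0 N) : IsValFun Kb (wInf N c) where
  map_mul f g hf hg := wInf_mul N c f g hf hg
  map_add f g hf hg hfg := wInf_add N c f g hf hg hfg
  map_const a ha := wInf_const N c a ha

theorem wInf_jBar (c : SL(2, ℤ) ⧸ CongruenceSubgroup.Gamma0 N) :
    wInf N c (jBar N) = -(N : ℤ) := by
  have h1 := wInf_x N c
  rw [(isValFun_wInf N c).map_inv (jBar_ne_zero' N)] at h1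
  omega

/-- The cusp condition of `holDiff` in terms of the valuations `wInf`. -/
theorem le_wInf_of_mem_holDiff {h : Fb N} (hh : h ∈ holDiff Kb (jBar N)) (h0 : h ≠ 0)
    (c : SL(2, ℤ) ⧸ CongruenceSubgroup.Gamma0 N) : (N : ℤ) + 1 ≤ wInf N c h := by
  have h1 := le_of_mem_holDiff_inf (isValFun_wInf N c) hh h0 (jBar_ne_zero' N)
    (by rw [wInf_jBar]; have : 0 < (N : ℤ) := by exact_mod_cast NeZero.pos N
        omega)
  rw [wInf_jBar] at h1
  omega

theorem wInf_div_coe (c : SL(2, ℤ) ⧸ CongruenceSubgroup.Gamma0 N) {a b : Rb N} (ha : a ≠ 0)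
    (hb : b ≠ 0) :
    wInf N c ((a : Fb N) / (b : Fb N)) =
      ordInf N (cosetHom (CongruenceSubgroup.Gamma0 N) (Psi N) c a) -
        ordInf N (cosetHom (CongruenceSubgroup.Gamma0 N) (Psi N) c b) :=
  ordAtInf_div (F := Fb N) (hasOrdsInf_cosetHom_Psi N c) ha hb

/-- The function `z ↦ Psi N r (γ • z)` as a conjugate. -/
theorem cosetHom_inv_apply (γ : SL(2, ℤ)) (r : Rb N) :
    cosetHom (CongruenceSubgroup.Gamma0 N) (Psi N)
      (QuotientGroup.mk (γ⁻¹ : SL(2, ℤ)) : SL(2, ℤ) ⧸ CongruenceSubgroup.Gamma0 N) r = fun z => Psi N r (γ • z) := by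
  rw [cosetHom_mk (fun γ hγ r τ => Psi_smul N r γ hγ τ)]
  funext z
  rw [conjHom_apply, inv_inv]

/-- **Orders at the cusps**: for `h = a / b ∈ holDiff`, the functions `Psi a ∘ γ`, `Psi b ∘ γ` have
`q_N`-orders `kA`, `kB` at `i∞` with `N + 1 ≤ kA - kB`. -/
theorem exists_hasOrdInf_of_mem_holDiff {h : Fb N} (hh : h ∈ holDiff Kb (jBar N))
    {a b : Rb N} (ha : a ≠ 0) (hb : b ≠ 0) (hab : h = (a : Fb N) / (b : Fb N)) (γ : SL(2, ℤ)) :
    ∃ kA kB : ℤ, HasOrdInf N (fun z => Psi N a (γ • z)) kA ∧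
      HasOrdInf N (fun z => Psi N b (γ • z)) kB ∧ (N : ℤ) + 1 ≤ kA - kB := by
  set c : SL(2, ℤ) ⧸ CongruenceSubgroup.Gamma0 N := QuotientGroup.mk (γ⁻¹ : SL(2, ℤ)) with hc
  have hex := hasOrdsInf_cosetHom_Psi N c
  have ha' : (a : Fb N) ≠ 0 := by exact_mod_cast ha
  have hb' : (b : Fb N) ≠ 0 := by exact_mod_cast hb
  have h0 : h ≠ 0 := by rw [hab]; exact div_ne_zero ha' hb'
  have h1 := le_wInf_of_mem_holDiff N hh h0 c
  rw [hab, wInf_div_coe N c ha hb] at h1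
  refine ⟨_, _, ?_, ?_, h1⟩
  · have := hex.hasOrdInf ha
    rw [cosetHom_inv_apply] at this
    exact this
  · have := hex.hasOrdInf hb
    rw [cosetHom_inv_apply] at this
    exact this

end Fermat.Agent.X0.RR7
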