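import Mathlib
import Fermat.Agent.X0.RR7.HolDiv
import Fermat.Agent.X0.RR7.LocalFin
import Fermat.Agent.X0.RR7.LocalInf
import Fermat.Agent.X0.RR7.GlueAux
import Fermat.Agent.X0.RR7.CountForms

set_option autoImplicit false

/-!
# X-RR, RR7: every `h ∈ holDiff Kb (jBar N)` gives a weight-2 cusp form `Psi(h) * D j`

Hence `finrank Kb (holDiff Kb (jBar N)) ≤ finrank ℂ S₂(Γ₀(N))`.
-/

namespace Fermat.Agent.X0.RR7

open AlgebraicCurve Fermat.Agent.X0 UpperHalfPlane ModularForm Derivative CongruenceSubgroup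
open scoped MatrixGroups ModularForm Manifold

variable (N : ℕ) [NeZero N]

theorem hasCuspFormOf_of_mem_holDiff {n : ℕ} (hx : IsSepVar Kb (jBar N) n) {h : Fb N}
    (hh : h ∈ holDiff Kb (jBar N)) : HasCuspFormOf N h := by
  obtain ⟨a, b, hb', hab⟩ := exists_Rb_div N h
  have hb : b ≠ 0 := by
    intro h0
    apply hb'
    rw [h0]
    rfl
  have hB0 : Psi N b ≠ 0 := map_ne_zero_of_injective (Psi_injective N) hb
  have hord := fun z => ordAt_le_of_mem_holDiff N hx hh hb hab z
  obtain ⟨G, hG, hAG⟩ := exists_mdiff_mul_eq ((Psi_mdiff N a).mul D_jFun_mdiff) (Psi_mdiff N b) hB0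
    hord
  have hrel : ∀ z, Psi N b z * G z = Psi N a z * D jFun z := fun z =>
    (congrFun hAG z).symm
  have hinv : ∀ γ ∈ Gamma0 N, G ∣[(2 : ℤ)] γ = G := fun γ hγ =>
    rr7_slash_eq_of_mul_eq (Psi_mdiff N b) hB0 hG hrel γ (Psi_smul N a γ hγ) (Psi_smul N b γ hγ)
      (D_jFun_slash γ)
  have hzero : ∀ γ : SL(2, ℤ), IsZeroAtImInfty (G ∣[(2 : ℤ)] γ) := by
    intro γ
    by_cases ha : a = 0
    · -- then `G = 0`
      have hG0 : G = 0 := by
        have h1 : Psi N b * G = 0 := by
          funext z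
          rw [Pi.mul_apply, hrel z, ha, map_zero]
          simp
        rcases Fermat.Agent.S23.mdiff_mul_eq_zero (Psi_mdiff N b) hG h1 with h2 | h2
        · exact absurd h2 hB0
        · exact h2
      rw [hG0]
      have : (0 : ℍ → ℂ) ∣[(2 : ℤ)] γ = 0 := by
        funext z
        simp [ModularForm.SL_slash_apply]
      rw [this]
      exact Filter.zero_zeroAtFilter _
    · obtain ⟨kA, kB, hkA, hkB, hk⟩ := exists_hasOrdInf_of_mem_holDiff N hh ha hb hab γ
      have hJ := rr7_hasOrdInf_D_jFun N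
      have hmul : (fun z => Psi N b (γ • z)) * (G ∣[(2 : ℤ)] γ) =
          (fun z => Psi N a (γ • z)) * D jFun := by
        funext z
        simp only [Pi.mul_apply, ModularForm.SL_slash_apply]
        have hJz : D jFun (γ • z) * denom γ z ^ (-(2 : ℤ)) = D jFun z := by
          have := congrFun (D_jFun_slash γ) z
          rwa [ModularForm.SL_slash_apply] at this
        rw [← mul_assoc, hrel (γ • z), mul_assoc, hJz]
      have h1 := rr7_hasOrdInf_of_mul_eq (hkA.mul hJ) hkB hmul
      exact rr7_isZeroAtImInfty_of_hasOrdInf h1 (by omega)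
  exact ⟨a, b, rr7_mkCusp N G hG hinv hzero, hb, hab, hrel⟩

/-- **RR7, analytic half**: the place-form space of holomorphic differentials embeds into
weight-2 cusp forms, dimensionwise. -/
theorem finrank_holDiff_le_finrank_cuspForm {n : ℕ} (hx : IsSepVar Kb (jBar N) n) :
    Module.finrank Kb (holDiff Kb (jBar N)) ≤ Module.finrank ℂ (CuspForm (Gamma0 N) 2) :=
  finrank_le_of_hasCuspFormOf N (holDiff Kb (jBar N))
    fun _ hh => hasCuspFormOf_of_mem_holDiff N hx hh

end Fermat.Agent.X0.RR7
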