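import Mathlib
import Fermat.Agent.X0.Count
import Fermat.Agent.X0.S21.Final
import Fermat.Agent.X0.S21.ParabolicFinal
import Fermat.Agent.X0.RR7.Existence

set_option autoImplicit false

/-!
# X-RR, RR7: the lower bound `g ≤ dim S₂(Γ₀(N))` and S20 / S21 in hypothesis form

Inputs (hypotheses): the five X-MOD statements and the place form of RR-core
`2 * dim holDiff - 2 = (ψ - #places over 0) + (ψ - #places over 1728) - (ψ + #places over ∞)`.
-/

namespace Fermat.Agent.X0.RR7

open AlgebraicCurve ModularCurve Fermat.Agent.X0 CongruenceSubgroup Module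
open scoped MatrixGroups

variable (N : ℕ) [NeZero N]

/-- The place form of RR-core for `(Fb N, jBar N)` with branch set `{0, 1728}`. -/
def RRCorePlaceForm : Prop :=
  2 * (finrank Kb (holDiff Kb (jBar N)) : ℤ) - 2 =
    ((dedekindPsi N : ℤ) - (Nat.card (placesOver (jBar N) (0 : Kb)) : ℤ)) +
      ((dedekindPsi N : ℤ) - (Nat.card (placesOver (jBar N) (1728 : Kb)) : ℤ)) -
      ((dedekindPsi N : ℤ) + (Nat.card (placesOverInfty Kb (jBar N)) : ℤ))

/-- `dim holDiff = genusFormula N` from RR-core and the place counts. -/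
theorem finrank_holDiff_eq_genusFormula_of
    (h1728 : Nat.card (placesOver (jBar N) (1728 : Kb)) = orbitCount N ModularGroup.S)
    (h0 : Nat.card (placesOver (jBar N) (0 : Kb)) =
      orbitCount N (ModularGroup.S * ModularGroup.T))
    (hinf : Nat.card (placesOverInfty Kb (jBar N)) = orbitCount N ModularGroup.T)
    (hRR : RRCorePlaceForm N) :
    (finrank Kb (holDiff Kb (jBar N)) : ℚ) = genusFormula N := by
  unfold RRCorePlaceForm at hRR
  rw [h0, h1728, hinf] at hRR
  have h2 := two_mul_orbitCount_S N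
  have h3 := three_mul_orbitCount_ST N
  have hT := orbitCount_T N
  have hRRq : 2 * (finrank Kb (holDiff Kb (jBar N)) : ℚ) - 2 =
      ((dedekindPsi N : ℚ) - orbitCount N (ModularGroup.S * ModularGroup.T)) +
        ((dedekindPsi N : ℚ) - orbitCount N ModularGroup.S) -
          ((dedekindPsi N : ℚ) + orbitCount N ModularGroup.T) := by
    exact_mod_cast hRR
  have h2' : (orbitCount N ModularGroup.S : ℚ) = ((dedekindPsi N : ℚ) + nuTwo N) / 2 := by
    have : (2 : ℚ) * orbitCount N ModularGroup.S = (dedekindPsi N : ℚ) + nuTwo N := by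
      exact_mod_cast h2
    linarith
  have h3' : (orbitCount N (ModularGroup.S * ModularGroup.T) : ℚ)
      = ((dedekindPsi N : ℚ) + 2 * nuThree N) / 3 := by
    have : (3 : ℚ) * orbitCount N (ModularGroup.S * ModularGroup.T)
        = (dedekindPsi N : ℚ) + 2 * nuThree N := by
      exact_mod_cast h3
    linarith
  rw [h2', h3', hT] at hRRq
  rw [genusFormula]
  linarith

/-- **Lower bound** `g ≤ dim S₂(Γ₀(N))`. -/
theorem genusFormula_le_finrank_cuspForm_of
    (hsep : IsSepVar Kb (jBar N) (dedekindPsi N))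
    (h1728 : Nat.card (placesOver (jBar N) (1728 : Kb)) = orbitCount N ModularGroup.S)
    (h0 : Nat.card (placesOver (jBar N) (0 : Kb)) =
      orbitCount N (ModularGroup.S * ModularGroup.T))
    (hinf : Nat.card (placesOverInfty Kb (jBar N)) = orbitCount N ModularGroup.T)
    (hRR : RRCorePlaceForm N) :
    genusFormula N ≤ (finrank ℂ (CuspForm (Gamma0 N) 2) : ℚ) := by
  rw [← finrank_holDiff_eq_genusFormula_of N h1728 h0 hinf hRR]
  exact_mod_cast finrank_holDiff_le_finrank_cuspForm N hsep

/-- **S20** in hypothesis form. -/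
theorem s20_of
    (hsep : IsSepVar Kb (jBar N) (dedekindPsi N))
    (h1728 : Nat.card (placesOver (jBar N) (1728 : Kb)) = orbitCount N ModularGroup.S)
    (h0 : Nat.card (placesOver (jBar N) (0 : Kb)) =
      orbitCount N (ModularGroup.S * ModularGroup.T))
    (hinf : Nat.card (placesOverInfty Kb (jBar N)) = orbitCount N ModularGroup.T)
    (hRR : RRCorePlaceForm N) :
    (finrank ℂ (CuspForm (Gamma0 N) 2) : ℚ) = genusFormula N :=
  le_antisymm
    (Fermat.Agent.X0.S21.finrank_cuspForm_two_le_of_bound N
      (Fermat.Agent.X0.S21.finrank_parabolicHoms_le N))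
    (genusFormula_le_finrank_cuspForm_of N hsep h1728 h0 hinf hRR)

/-- **S21** in hypothesis form. -/
theorem s21_of
    (hsep : IsSepVar Kb (jBar N) (dedekindPsi N))
    (h1728 : Nat.card (placesOver (jBar N) (1728 : Kb)) = orbitCount N ModularGroup.S)
    (h0 : Nat.card (placesOver (jBar N) (0 : Kb)) =
      orbitCount N (ModularGroup.S * ModularGroup.T))
    (hinf : Nat.card (placesOverInfty Kb (jBar N)) = orbitCount N ModularGroup.T)
    (hRR : RRCorePlaceForm N) :
    Function.Injective (ModularCurve.periodHomPair N) ∧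
      LinearMap.range (ModularCurve.periodHomPair N) =
        ModularCurve.Period.parabolicHoms ℂ (Gamma0 N) ℂ :=
  Fermat.Agent.X0.S21.s21_of_bounds N (Fermat.Agent.X0.S21.finrank_parabolicHoms_le N)
    (genusFormula_le_finrank_cuspForm_of N hsep h1728 h0 hinf hRR)

end Fermat.Agent.X0.RR7
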