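import Mathlib
import Fermat.Agent.X0.RR7.DictFin

/-!
# X-RR, RR7 (D1, finite part): the sum `∑ (e - 1)` over the finite primes
-/

set_option autoImplicit false

open AlgebraicCurve IsDedekindDomain WithZero Polynomial FunctionField

namespace Fermat.Agent.X0.RR7

variable {K F : Type*} [Field K] [Field F] [Algebra K F]
  [Algebra K[X] F] [Algebra (RatFunc K) F] [IsScalarTower K[X] (RatFunc K) F]
  [IsScalarTower K K[X] F] [FunctionField K F] [Algebra.IsSeparable (RatFunc K) F]

/-- The primes of the ring of integers over the point `a`. -/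
def primesAt (K F : Type*) [Field K] [Field F] [Algebra K F]
    [Algebra K[X] F] [Algebra (RatFunc K) F] [IsScalarTower K[X] (RatFunc K) F]
    [IsScalarTower K K[X] F] [FunctionField K F] [Algebra.IsSeparable (RatFunc K) F] (a : K) :
    Set (HeightOneSpectrum (ringOfIntegers K F)) :=
  {w | 0 < (Place.ofHeightOneSpectrum (K := K) (F := F) w).ord (coordX K F - algebraMap K F a)}

theorem mem_primesAt {a : K} {w : HeightOneSpectrum (ringOfIntegers K F)} :
    w ∈ primesAt K F a ↔
      0 < (Place.ofHeightOneSpectrum (K := K) (F := F) w).ord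
        (coordX K F - algebraMap K F a) := Iff.rfl

theorem finite_primesAt (a : K) : (primesAt K F a).Finite := by
  have h : primesAt K F a =
      (fun w => Place.ofHeightOneSpectrum (K := K) (F := F) w) ⁻¹' placesOver (coordX K F) a := by
    ext w
    rfl
  rw [h]
  exact (finite_placesOver_core (K := K) (F := F) a).preimage
    (Place.ofHeightOneSpectrum_injective (K := K) (F := F)).injOn

theorem image_primesAt_toFinset [DecidableEq (Place K F)] (a : K) :
    (finite_primesAt (K := K) (F := F) a).toFinset.image
      (fun w => Place.ofHeightOneSpectrum (K := K) (F := F) w) =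
      (finite_placesOver_core (K := K) (F := F) a).toFinset := by
  ext v
  simp only [Finset.mem_image, Set.Finite.mem_toFinset]
  constructor
  · rintro ⟨w, hw, rfl⟩
    exact hw
  · intro hv
    obtain ⟨w, rfl⟩ := Place.exists_prime_of_coordX_mem v (Place.coordX_mem_of_mem_placesOver hv)
    exact ⟨w, hv, rfl⟩

theorem card_primesAt (a : K) :
    (finite_primesAt (K := K) (F := F) a).toFinset.card =
      Nat.card (placesOver (coordX K F) a) := by
  classical
  rw [Nat.card_eq_card_finite_toFinset (finite_placesOver_core (K := K) (F := F) a),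
    ← image_primesAt_toFinset,
    Finset.card_image_of_injective _ (Place.ofHeightOneSpectrum_injective (K := K) (F := F))]

theorem sum_eOver_primesAt [IsAlgClosed K] (a : K) :
    ∑ w ∈ (finite_primesAt (K := K) (F := F) a).toFinset, (RR.eOver K[X] w : ℤ) =
      (Module.finrank (RatFunc K) F : ℤ) := by
  classical
  rw [← sum_ord_placesOver_core (K := K) (F := F) a, ← image_primesAt_toFinset,
    Finset.sum_image (fun w _ w' _ h => Place.ofHeightOneSpectrum_injective (K := K) h)]
  refine Finset.sum_congr rfl fun w hw => ?_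
  rw [Set.Finite.mem_toFinset] at hw
  exact eOver_eq_ord_sub w a hw

theorem sum_eOver_sub_one_primesAt [IsAlgClosed K] (a : K) :
    ∑ w ∈ (finite_primesAt (K := K) (F := F) a).toFinset, ((RR.eOver K[X] w : ℤ) - 1) =
      (Module.finrank (RatFunc K) F : ℤ) - (Nat.card (placesOver (coordX K F) a) : ℤ) := by
  rw [Finset.sum_sub_distrib, sum_eOver_primesAt, ← card_primesAt]
  simp

theorem disjoint_primesAt {a b : K} (hab : a ≠ b) :
    Disjoint (primesAt K F a) (primesAt K F b) := by
  rw [Set.disjoint_left]
  intro w ha hb
  exact hab (Place.ord_pos_unique_constant _ ha hb)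

/-- The support of `e - 1` is contained in the primes over the branch values. -/
theorem support_eOver_sub_one_subset [IsAlgClosed K] (A : Finset K)
    (hA : ∀ (v : Place K F) (a : K), 2 ≤ v.ord (coordX K F - algebraMap K F a) → a ∈ A) :
    (Function.support fun w : HeightOneSpectrum (ringOfIntegers K F) =>
      (RR.eOver K[X] w : ℤ) - 1) ⊆ ⋃ a ∈ A, primesAt K F a := by
  intro w hw
  rw [Function.mem_support] at hw
  obtain ⟨a, ha⟩ := exists_ord_pos_ofHeightOneSpectrum (K := K) (F := F) w
  have he := eOver_eq_ord_sub w a ha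
  have h2 : 2 ≤ (Place.ofHeightOneSpectrum (K := K) (F := F) w).ord
      (coordX K F - algebraMap K F a) := by
    rw [he] at hw
    omega
  simp only [Set.mem_iUnion]
  exact ⟨a, hA _ a h2, ha⟩

theorem finite_support_eOver_sub_one [IsAlgClosed K] (A : Finset K)
    (hA : ∀ (v : Place K F) (a : K), 2 ≤ v.ord (coordX K F - algebraMap K F a) → a ∈ A) :
    (Function.support fun w : HeightOneSpectrum (ringOfIntegers K F) =>
      (RR.eOver K[X] w : ℤ) - 1).Finite :=
  (Set.Finite.biUnion A.finite_toSet fun a _ => finite_primesAt a).subset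
    (support_eOver_sub_one_subset A hA)

/-- (F4) `∑ (e - 1)` over the finite primes, in terms of the fibres of `x`. -/
theorem finsum_eOver_sub_one [IsAlgClosed K] (A : Finset K)
    (hA : ∀ (v : Place K F) (a : K), 2 ≤ v.ord (coordX K F - algebraMap K F a) → a ∈ A) :
    ∑ᶠ w : HeightOneSpectrum (ringOfIntegers K F), ((RR.eOver K[X] w : ℤ) - 1) =
      ∑ a ∈ A, ((Module.finrank (RatFunc K) F : ℤ) -
        (Nat.card (placesOver (coordX K F) a) : ℤ)) := by
  classical
  have hsub : (Function.support fun w : HeightOneSpectrum (ringOfIntegers K F) =>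
      (RR.eOver K[X] w : ℤ) - 1) ⊆
      ↑(A.biUnion fun a => (finite_primesAt (K := K) (F := F) a).toFinset) := by
    intro w hw
    have := support_eOver_sub_one_subset A hA hw
    simp only [Set.mem_iUnion] at this
    obtain ⟨a, haA, ha⟩ := this
    simp only [Finset.coe_biUnion, Set.mem_iUnion, Finset.mem_coe, Set.Finite.mem_toFinset]
    exact ⟨a, haA, ha⟩
  rw [finsum_eq_sum_of_support_subset _ hsub, Finset.sum_biUnion]
  · exact Finset.sum_congr rfl fun a _ => sum_eOver_sub_one_primesAt a
  · intro a _ b _ hab
    rw [Function.onFun, Finset.disjoint_left]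
    intro w ha hb
    rw [Set.Finite.mem_toFinset] at ha hb
    exact Set.disjoint_left.mp (disjoint_primesAt hab) ha hb

end Fermat.Agent.X0.RR7
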