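import Mathlib
import Fermat.Agent.X0.RR7.DictInf

/-!
# X-RR, RR7 (D1, infinite part): the sum `∑ (e + 1)` over the primes of `Binf K F`
-/

set_option autoImplicit false

open AlgebraicCurve IsDedekindDomain WithZero Polynomial FunctionField

namespace Fermat.Agent.X0.RR7

open Fermat.Agent.X0.RR

variable {K F : Type*} [Field K] [Field F] [Algebra K F]
  [Algebra K[X] F] [Algebra (RatFunc K) F] [IsScalarTower K[X] (RatFunc K) F]
  [IsScalarTower K K[X] F]
  [IsDedekindDomain (Binf K F)] [IsFractionRing (Binf K F) F]
  [Algebra K (Binf K F)] [IsScalarTower K (Binf K F) F]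

theorem ofHeightOneSpectrum_inf_mem_placesOverInfty (w : HeightOneSpectrum (Binf K F)) :
    Place.ofHeightOneSpectrum (K := K) (F := F) w ∈ placesOverInfty K (coordX K F) :=
  ord_coordX_neg_ofHeightOneSpectrum_inf w

/-- The primes of `Binf K F` form a finite set as soon as `x` has finitely many poles. -/
theorem finite_hos_inf (hfin : (placesOverInfty K (coordX K F)).Finite) :
    Finite (HeightOneSpectrum (Binf K F)) := by
  haveI : Finite (placesOverInfty K (coordX K F)) := hfin.to_subtype
  refine Finite.of_injective
    (fun w : HeightOneSpectrum (Binf K F) =>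
      (⟨Place.ofHeightOneSpectrum (K := K) (F := F) w,
        ofHeightOneSpectrum_inf_mem_placesOverInfty w⟩ : placesOverInfty K (coordX K F))) ?_
  intro w w' h
  exact Place.ofHeightOneSpectrum_injective (K := K) (F := F) (congrArg Subtype.val h)

/-- (I4) `∑ (e + 1)` over the primes at infinity. -/
theorem finsum_eOver_add_one_inf (n : ℤ) (hfin : (placesOverInfty K (coordX K F)).Finite)
    (hsum : ∑ v ∈ hfin.toFinset, -v.ord (coordX K F) = n) :
    ∑ᶠ w : HeightOneSpectrum (Binf K F), ((eOver (Rinf K) w : ℤ) + 1) =
      n + (Nat.card (placesOverInfty K (coordX K F)) : ℤ) := by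
  classical
  let S : Finset (HeightOneSpectrum (Binf K F)) :=
    hfin.toFinset.preimage (fun w => Place.ofHeightOneSpectrum (K := K) (F := F) w)
      (Place.ofHeightOneSpectrum_injective (K := K) (F := F)).injOn
  have hS : ∀ w, w ∈ S := by
    intro w
    rw [Finset.mem_preimage, Set.Finite.mem_toFinset]
    exact ofHeightOneSpectrum_inf_mem_placesOverInfty w
  have himage : S.image (fun w => Place.ofHeightOneSpectrum (K := K) (F := F) w) =
      hfin.toFinset := by
    ext v
    simp only [Finset.mem_image, Set.Finite.mem_toFinset]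
    constructor
    · rintro ⟨w, -, rfl⟩
      exact ofHeightOneSpectrum_inf_mem_placesOverInfty w
    · intro hv
      obtain ⟨w, rfl⟩ := exists_hos_inf_of_ord_neg v hv
      exact ⟨w, hS w, rfl⟩
  rw [finsum_eq_sum_of_support_subset (s := S) _ (fun w _ => hS w), Finset.sum_add_distrib]
  congr 1
  · rw [← hsum, ← himage,
      Finset.sum_image (fun w _ w' _ h => Place.ofHeightOneSpectrum_injective (K := K) h)]
    exact Finset.sum_congr rfl fun w _ => eOver_inf_eq_neg_ord w
  · rw [Nat.card_eq_card_finite_toFinset hfin, ← himage,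
      Finset.card_image_of_injective _ (Place.ofHeightOneSpectrum_injective (K := K) (F := F))]
    simp

end Fermat.Agent.X0.RR7
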