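import Mathlib
import Fermat.Agent.X0.RR7.HolDiffDef
import Fermat.Agent.X0.RR7.DictFinSum
import Fermat.Agent.X0.RR7.DictInfSum

/-!
# X-RR, RR7 (D1): the place form of the Riemann–Roch core

Coordinate context (`x = coordX K F`).  We translate the valuation form of `RR6`
(primes of `Bf K F = ringOfIntegers K F` and of `Binf K F`, ramification indices `eOver`) into the
place form (`holDiff K x`, `placesOver`, `placesOverInfty`).
-/

set_option autoImplicit false

open AlgebraicCurve IsDedekindDomain WithZero Polynomial FunctionField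

namespace Fermat.Agent.X0.RR7

open Fermat.Agent.X0.RR

variable {K F : Type*} [Field K] [Field F] [Algebra K F]
  [Algebra K[X] F] [Algebra (RatFunc K) F] [IsScalarTower K[X] (RatFunc K) F]
  [IsScalarTower K K[X] F] [FunctionField K F] [Algebra.IsSeparable (RatFunc K) F]
  [IsDedekindDomain (Binf K F)] [IsFractionRing (Binf K F) F]
  [Algebra K (Binf K F)] [IsScalarTower K (Binf K F) F]

/-- (P1) Membership in `holDiff K x` in valuation form. -/
theorem mem_holDiff_iff_valuation [IsAlgClosed K] (h : F) :
    h ∈ holDiff K (coordX K F) ↔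
      (∀ v : HeightOneSpectrum (ringOfIntegers K F),
        v.valuation F h ≤ exp ((eOver K[X] v : ℤ) - 1)) ∧
      (∀ w : HeightOneSpectrum (Binf K F),
        w.valuation F h ≤ exp (-((eOver (Rinf K) w : ℤ) + 1))) := by
  rcases eq_or_ne h 0 with rfl | h0
  · simp
  constructor
  · intro hh
    have hol := isHolAt_of_mem_holDiff hh h0
    constructor
    · intro w
      obtain ⟨a, ha⟩ := exists_ord_pos_ofHeightOneSpectrum (K := K) (F := F) w
      rw [valuation_le_exp_iff (K := K) w h0, eOver_eq_ord_sub w a ha]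
      have := (hol (Place.ofHeightOneSpectrum (K := K) (F := F) w)).1 a ha
      omega
    · intro w
      have hneg := ord_coordX_neg_ofHeightOneSpectrum_inf (K := K) (F := F) w
      rw [valuation_le_exp_iff (K := K) w h0, eOver_inf_eq_neg_ord (K := K) w]
      have := (hol (Place.ofHeightOneSpectrum (K := K) (F := F) w)).2 hneg
      omega
  · rintro ⟨hfin, hinf⟩
    refine Or.inr fun v => ⟨fun a ha => ?_, fun hneg => ?_⟩
    · have hmem : coordX K F ∈ v.toValuationSubring :=
        Place.coordX_mem_of_mem_placesOver (a := a) ha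
      obtain ⟨w, rfl⟩ := Place.exists_prime_of_coordX_mem v hmem
      have := hfin w
      rw [valuation_le_exp_iff (K := K) w h0, eOver_eq_ord_sub w a ha] at this
      omega
    · obtain ⟨w, rfl⟩ := exists_hos_inf_of_ord_neg v hneg
      have := hinf w
      rw [valuation_le_exp_iff (K := K) w h0, eOver_inf_eq_neg_ord (K := K) w] at this
      omega

/-- (P2) The right-hand side of the Riemann–Roch core in place form. -/
theorem finsum_sub_finsum_eq [IsAlgClosed K] (A : Finset K)
    (hA : ∀ (v : Place K F) (a : K), 2 ≤ v.ord (coordX K F - algebraMap K F a) → a ∈ A)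
    (hfin : (placesOverInfty K (coordX K F)).Finite)
    (hsum : ∑ v ∈ hfin.toFinset, -v.ord (coordX K F) = (Module.finrank (RatFunc K) F : ℤ)) :
    ∑ᶠ v : HeightOneSpectrum (ringOfIntegers K F), ((eOver K[X] v : ℤ) - 1) -
      ∑ᶠ w : HeightOneSpectrum (Binf K F), ((eOver (Rinf K) w : ℤ) + 1) =
    -2 * (Module.finrank (RatFunc K) F : ℤ) +
      ∑ a ∈ A, ((Module.finrank (RatFunc K) F : ℤ) -
        (Nat.card (placesOver (coordX K F) a) : ℤ)) +
      ((Module.finrank (RatFunc K) F : ℤ) -
        (Nat.card (placesOverInfty K (coordX K F)) : ℤ)) := by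
  rw [finsum_eOver_sub_one A hA, finsum_eOver_add_one_inf _ hfin hsum]
  ring

/-- (P) Place form of the Riemann–Roch core, from its valuation form for a submodule `HOL`. -/
theorem finrank_holDiff_of_core [IsAlgClosed K] (HOL : Submodule K F)
    (hmem : ∀ h : F, h ∈ HOL ↔
      (∀ v : HeightOneSpectrum (ringOfIntegers K F),
        v.valuation F h ≤ exp ((eOver K[X] v : ℤ) - 1)) ∧
      (∀ w : HeightOneSpectrum (Binf K F),
        w.valuation F h ≤ exp (-((eOver (Rinf K) w : ℤ) + 1))))
    (hcore : Module.Finite K HOL ∧ 2 * (Module.finrank K HOL : ℤ) - 2 =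
      ∑ᶠ v : HeightOneSpectrum (ringOfIntegers K F), ((eOver K[X] v : ℤ) - 1) -
        ∑ᶠ w : HeightOneSpectrum (Binf K F), ((eOver (Rinf K) w : ℤ) + 1))
    (A : Finset K)
    (hA : ∀ (v : Place K F) (a : K), 2 ≤ v.ord (coordX K F - algebraMap K F a) → a ∈ A)
    (hfin : (placesOverInfty K (coordX K F)).Finite)
    (hsum : ∑ v ∈ hfin.toFinset, -v.ord (coordX K F) = (Module.finrank (RatFunc K) F : ℤ)) :
    Module.Finite K (holDiff K (coordX K F)) ∧
      2 * (Module.finrank K (holDiff K (coordX K F)) : ℤ) - 2 =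
        -2 * (Module.finrank (RatFunc K) F : ℤ) +
          ∑ a ∈ A, ((Module.finrank (RatFunc K) F : ℤ) -
            (Nat.card (placesOver (coordX K F) a) : ℤ)) +
          ((Module.finrank (RatFunc K) F : ℤ) -
            (Nat.card (placesOverInfty K (coordX K F)) : ℤ)) := by
  have heq : holDiff K (coordX K F) = HOL := by
    ext h
    rw [mem_holDiff_iff_valuation, hmem]
  rw [heq, hcore.2, finsum_sub_finsum_eq A hA hfin hsum]
  exact ⟨hcore.1, rfl⟩

end Fermat.Agent.X0.RR7
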