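import Mathlib
import Fermat.Agent.X0.RR.Core
import Fermat.Agent.X0.Alg.Deg
import Fermat.Agent.X0.ModFinal
import Fermat.Agent.X0.RR7.PlaceForm
import Fermat.Agent.X0.RR7.LowerBound

/-!
# X-RR, RR7: the place form of the Riemann–Roch core for a separating variable, and S20 / S21

`finrank_holDiff_of_isSepVar` : for a separating variable `x` of degree `n` of `F / K` and a finite
set `A` containing all finite branch values,
`2 dim holDiff K x - 2 = -2 n + ∑_{a ∈ A} (n - #placesOver x a) + (n - #placesOverInfty K x)`.

`rrCorePlaceForm N : RRCorePlaceForm N`, then `s20`, `s21` (unconditional).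
-/

set_option autoImplicit false

open AlgebraicCurve IsDedekindDomain WithZero Polynomial FunctionField IntermediateField

namespace Fermat.Agent.X0.RR7

open Fermat.Agent.X0 Fermat.Agent.X0.RR

section General

variable {K F : Type*} [Field K] [Field F] [Algebra K F] [IsAlgClosed K] [CharZero K]

/-- **Place form of the Riemann–Roch core** for a separating variable. -/
theorem finrank_holDiff_of_isSepVar {x : F} {n : ℕ} (hx : IsSepVar K x n) (A : Finset K)
    (hA : ∀ (v : Place K F) (a : K), 2 ≤ v.ord (x - algebraMap K F a) → a ∈ A) :
    Module.Finite K (holDiff K x) ∧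
      2 * (Module.finrank K (holDiff K x) : ℤ) - 2 =
        -2 * (n : ℤ) + ∑ a ∈ A, ((n : ℤ) - (Nat.card (placesOver x a) : ℤ)) +
          ((n : ℤ) - (Nat.card (placesOverInfty K x) : ℤ)) := by
  letI := algPoly K x
  letI := algRat hx.transcendental
  haveI := isScalarTower_poly_rat hx.transcendental
  haveI := isScalarTower_base_poly (K := K) x
  haveI := hx.finite
  haveI := functionField_of_finite hx.transcendental
  haveI := isSeparable_ratFunc hx.transcendental
  haveI := isScalarTower_base_rat (K := K) (F := F)
  have hcx : coordX K F = x := coordX_eq x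
  have hn : (Module.finrank (RatFunc K) F : ℤ) = n := by
    rw [finrank_ratFunc_eq hx.transcendental, hx.finrank_eq]
  have hfin : (placesOverInfty K (coordX K F)).Finite := by
    rw [hcx]; exact finite_placesOverInfty hx
  have hsum : ∑ v ∈ hfin.toFinset, -v.ord (coordX K F) = (Module.finrank (RatFunc K) F : ℤ) := by
    rw [hn, ← sum_ord_placesOverInfty hx]
    refine Finset.sum_congr ?_ fun v _ => ?_
    · ext v
      simp only [Set.Finite.mem_toFinset]
      rw [hcx]
    · rw [hcx]
  have key := finrank_holDiff_of_core (K := K) (F := F) (HOL K F) (mem_HOL_iff K F)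
    (rr_core K F) A (by rw [hcx]; exact hA) hfin hsum
  rw [hn, hcx] at key
  exact key

end General

section Modular

open ModularCurve

variable (N : ℕ) [NeZero N]

/-- **RR-core in place form for `(Fb N, jBar N)`**. -/
theorem rrCorePlaceForm : RRCorePlaceForm N := by
  classical
  have hsep := jBar_isSepVar N
  have hA : ∀ (v : Place Kb (Fb N)) (a : Kb),
      2 ≤ v.ord (jBar N - algebraMap Kb (Fb N) a) → a ∈ ({0, 1728} : Finset Kb) := by
    intro v a h2
    by_contra hmem
    simp only [Finset.mem_insert, Finset.mem_singleton, not_or] at hmem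
    have := ord_jBar_sub_le_one N v a hmem.1 hmem.2
    omega
  have h := (finrank_holDiff_of_isSepVar hsep ({0, 1728} : Finset Kb) hA).2
  have hne : (0 : Kb) ≠ 1728 := by norm_num
  rw [Finset.sum_pair hne] at h
  unfold RRCorePlaceForm
  rw [h]
  ring

end Modular

end Fermat.Agent.X0.RR7
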