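/-
X-RR, piece RR7-D5 (helper9): packaging `Ψ(h) · D j` as a cusp form of weight `2` for `Γ₀(N)`.

* `mdiff_eq_zero_of_mul_eq_zero` : holomorphic functions on `ℍ` have no zero divisors;
* `slash_two_eq_of_mul_eq` : if `A · D j = B · G` with `A`, `B` invariant under `γ`, `B ≠ 0`
  holomorphic and `G` holomorphic, then `G ∣[2] γ = G`;
* `cuspPack` : the cusp form with underlying function `G`;
* `IsPack N h f` : `f` is "`Ψ(h) · D j`", i.e. `Ψ(a) · D j = Ψ(b) · f` for some `h = a / b`;
* `linearIndependent_of_isPack` : `ℚ̄`-linearly independent `h i` give `ℂ`-linearly independent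
  `f i`;
* `finrank_le_finrank_cuspForm_of_isPack` : `dim_ℚ̄ H ≤ dim_ℂ S₂(Γ₀(N))` for a `ℚ̄`-subspace `H` of
  `Fb N` all of whose elements can be packed into cusp forms.
-/
import Mathlib
import Fermat.Agent.X0.Psi
import Fermat.Agent.X0.JLocal
import Fermat.Agent.X0.RR.RationalIndep
import Fermat.Agent.X0.S21.Final

set_option autoImplicit false

namespace Fermat.Agent.X0.RR7

open UpperHalfPlane ModularForm CongruenceSubgroup Derivative ModularCurve HahnSeries
open Fermat.Agent.S23
open scoped MatrixGroups Manifold ModularForm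

/-! ## Holomorphic functions on `ℍ` form a domain -/

theorem ordAt_zero (z : ℍ) : ordAt (0 : ℍ → ℂ) z = ⊤ := by
  unfold ordAt
  rw [analyticOrderAt_eq_top]
  exact Filter.Eventually.of_forall fun w => rfl

theorem mdiff_eq_zero_of_mul_eq_zero {F G : ℍ → ℂ} (hF : MDiff F) (hG : MDiff G) (hG0 : G ≠ 0)
    (h : ∀ z, F z * G z = 0) : F = 0 := by
  by_contra hF0
  have h1 : F * G = 0 := funext h
  have h2 := ordAt_mul hF hG UpperHalfPlane.I
  rw [h1, ordAt_zero] at h2
  have h3 := ordAt_ne_top hF hF0 UpperHalfPlane.I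
  have h4 := ordAt_ne_top hG hG0 UpperHalfPlane.I
  exact (WithTop.add_ne_top.mpr ⟨h3, h4⟩) h2.symm

theorem mdiff_eq_of_mul_eq_mul {B G G' : ℍ → ℂ} (hB : MDiff B) (hB0 : B ≠ 0) (hG : MDiff G)
    (hG' : MDiff G') (h : ∀ z, B z * G z = B z * G' z) : G = G' := by
  have h0 : G - G' = 0 := by
    apply mdiff_eq_zero_of_mul_eq_zero (hG.sub hG') hB hB0
    intro z
    have := h z
    simp only [Pi.sub_apply]
    linear_combination this
  exact sub_eq_zero.mp h0

theorem dJFun_ne_zero : D jFun ≠ 0 := by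
  intro h
  have h1 := ordAt_D_jFun UpperHalfPlane.I
  rw [h, ordAt_zero] at h1
  have h4 := ordAt_ne_top E₄_mdiff E₄_fun_ne_zero UpperHalfPlane.I
  have h6 := ordAt_ne_top E₆_mdiff E₆_fun_ne_zero UpperHalfPlane.I
  have : 2 • ordAt (E₄ : ℍ → ℂ) UpperHalfPlane.I + ordAt (E₆ : ℍ → ℂ) UpperHalfPlane.I ≠ ⊤ := by
    rw [two_nsmul]
    exact WithTop.add_ne_top.mpr ⟨WithTop.add_ne_top.mpr ⟨h4, h4⟩, h6⟩
  exact this h1.symm

/-! ## Weight two invariance by cancellation -/

theorem slash_two_eq_of_mul_eq {A B G : ℍ → ℂ} (hB : MDiff B) (hB0 : B ≠ 0) (hG : MDiff G)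
    (γ : SL(2, ℤ)) (hAγ : ∀ z, A (γ • z) = A z) (hBγ : ∀ z, B (γ • z) = B z)
    (h : ∀ z, A z * D jFun z = B z * G z) : G ∣[(2 : ℤ)] γ = G := by
  have hG' : MDiff (G ∣[(2 : ℤ)] γ) := by
    rw [ModularForm.SL_slash]
    exact hG.slash 2 _
  apply mdiff_eq_of_mul_eq_mul hB hB0 hG' hG
  intro z
  have hJ : (D jFun ∣[(2 : ℤ)] γ) z = D jFun z := by rw [D_jFun_slash]
  rw [ModularForm.SL_slash_apply] at hJ ⊢
  calc B z * (G (γ • z) * denom γ z ^ (-(2 : ℤ)))
      = (B (γ • z) * G (γ • z)) * denom γ z ^ (-(2 : ℤ)) := by rw [hBγ]; ring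
    _ = (A (γ • z) * D jFun (γ • z)) * denom γ z ^ (-(2 : ℤ)) := by rw [h (γ • z)]
    _ = A z * (D jFun (γ • z) * denom γ z ^ (-(2 : ℤ))) := by rw [hAγ]; ring
    _ = A z * D jFun z := by rw [hJ]
    _ = B z * G z := h z

/-! ## The cusp form -/

/-- The cusp form of weight `2` and level `Γ₀(N)` with underlying function `G`. -/
noncomputable def cuspPack (N : ℕ) [NeZero N] (G : ℍ → ℂ) (hG : MDiff G)
    (hinv : ∀ γ ∈ Gamma0 N, G ∣[(2 : ℤ)] γ = G)
    (hzero : ∀ γ : SL(2, ℤ), IsZeroAtImInfty (G ∣[(2 : ℤ)] γ)) : CuspForm (Gamma0 N) 2 where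
  toFun := G
  slash_action_eq' := by
    intro γ hγ
    obtain ⟨γ₀, hγ₀, rfl⟩ := Subgroup.mem_map.mp hγ
    exact hinv γ₀ hγ₀
  holo' := hG
  zero_at_cusps' := by
    intro c hc
    rw [Subgroup.IsArithmetic.isCusp_iff_isCusp_SL2Z] at hc
    rw [OnePoint.isZeroAt_iff_forall_SL2Z hc]
    intro γ _
    exact hzero γ

@[simp]
theorem coe_cuspPack (N : ℕ) [NeZero N] (G : ℍ → ℂ) (hG : MDiff G)
    (hinv : ∀ γ ∈ Gamma0 N, G ∣[(2 : ℤ)] γ = G)
    (hzero : ∀ γ : SL(2, ℤ), IsZeroAtImInfty (G ∣[(2 : ℤ)] γ)) :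
    (cuspPack N G hG hinv hzero : ℍ → ℂ) = G := rfl


/-! ## Packed pairs and linear independence -/

/-- `f` is the function "`Ψ(h) · D j`": `Ψ(a) · D j = Ψ(b) · f` for some presentation
`h = a / b` with `a, b ∈ Rb N`. -/
def IsPack (N : ℕ) (h : Fb N) (f : ℍ → ℂ) : Prop :=
  ∃ a b : Rb N, (b : Fb N) ≠ 0 ∧ h = (a : Fb N) / (b : Fb N) ∧
    ∀ z, Psi N a z * D jFun z = Psi N b z * f z

/-- The coefficient map of Laurent series, as a linear map. -/
noncomputable def coeffLin : LaurentSeries ℂ →ₗ[ℂ] (ℤ → ℂ) where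
  toFun s k := s.coeff k
  map_add' s t := by funext k; simp
  map_smul' c s := by funext k; simp

theorem coeffLin_injective : Function.Injective coeffLin := by
  intro s t h
  ext k
  exact congrFun h k

/-- `ℚ̄`-linearly independent elements of `Rb N` have `ℂ`-linearly independent images under the
`q`-expansion. -/
theorem linearIndependent_coeffMap_Rb (N : ℕ) {ι : Type*} [Fintype ι] (r : ι → Rb N)
    (hind : LinearIndependent Kb fun i => (r i : Fb N)) :
    LinearIndependent ℂ fun i => coeffMap iotaC (((r i : Rb N) : Fb N) : LaurentSeries Kb) := by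
  classical
  let _ : Algebra Kb ℂ := iotaC.toAlgebra
  refine RR.linearIndependent_of_rational_coeffs (K := Kb) (L := ℂ) coeffLin coeffLin_injective _
    ?_ ?_
  · intro i k
    exact ⟨(((r i : Rb N) : Fb N) : LaurentSeries Kb).coeff k, rfl⟩
  · intro c hc
    rw [Finsupp.sum_fintype _ _ (fun i => by simp)] at hc
    -- coefficientwise
    have h1 : ∀ k : ℤ, ∑ i, c i * (((r i : Rb N) : Fb N) : LaurentSeries Kb).coeff k = 0 := by
      intro k
      apply iotaC_injective
      have := congrArg (fun s : LaurentSeries ℂ => s.coeff k) hc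
      simp only [coeff_zero] at this
      rw [map_zero, map_sum, ← this, HahnSeries.coeff_sum]
      refine Finset.sum_congr rfl fun i _ => ?_
      rw [map_mul, HahnSeries.coeff_smul, coeffMap_coeff]
      rfl
    have h2 : ∑ i, c i • (r i : Fb N) = 0 := by
      apply Subtype.ext
      ext k
      rw [IntermediateField.coe_sum, HahnSeries.coeff_sum]
      have h0 : ((0 : Fb N) : LaurentSeries Kb).coeff k = 0 := rfl
      rw [h0, ← h1 k]
      refine Finset.sum_congr rfl fun i _ => ?_
      rw [IntermediateField.coe_smul, Algebra.smul_def, HahnSeries.algebraMap_apply',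
        PowerSeries.algebraMap_apply, Algebra.algebraMap_self, RingHom.id_apply,
        HahnSeries.ofPowerSeries_C, HahnSeries.C_mul_eq_smul, HahnSeries.coeff_smul, smul_eq_mul]
    ext i
    exact Fintype.linearIndependent_iff.mp hind c h2 i

theorem linearIndependent_of_isPack (N : ℕ) {ι : Type*} [Fintype ι] (h : ι → Fb N)
    (f : ι → ℍ → ℂ) (hpack : ∀ i, IsPack N (h i) (f i)) (hind : LinearIndependent Kb h) :
    LinearIndependent ℂ f := by
  classical
  choose a b hb hh hrel using hpack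
  -- common denominator
  set bb : Rb N := ∏ i, b i with hbbdef
  set a' : ι → Rb N := fun i => a i * ∏ j ∈ Finset.univ.erase i, b j with ha'def
  have hbb : ∀ i, bb = b i * ∏ j ∈ Finset.univ.erase i, b j := fun i =>
    (Finset.mul_prod_erase _ _ (Finset.mem_univ i)).symm
  have hbb0 : (bb : Fb N) ≠ 0 := by
    have : ((bb : Rb N) : Fb N) = ∏ i, (b i : Fb N) := by
      rw [hbbdef]; exact map_prod (Rb N).val b Finset.univ
    rw [this]
    exact Finset.prod_ne_zero_iff.mpr fun i _ => hb i
  have ha' : ∀ i, (a' i : Fb N) = h i * (bb : Fb N) := by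
    intro i
    have e1 : ((a' i : Rb N) : Fb N) =
        (a i : Fb N) * ((∏ j ∈ Finset.univ.erase i, b j : Rb N) : Fb N) := rfl
    have e2 : ((bb : Rb N) : Fb N) =
        (b i : Fb N) * ((∏ j ∈ Finset.univ.erase i, b j : Rb N) : Fb N) := by
      rw [hbb i]; rfl
    rw [e1, e2, hh i]
    field_simp [hb i]
  have hrel' : ∀ i z, Psi N (a' i) z * D jFun z = Psi N bb z * f i z := by
    intro i z
    rw [hbb i]
    simp only [ha'def, map_mul, Pi.mul_apply]
    linear_combination (Psi N (∏ j ∈ Finset.univ.erase i, b j) z) * hrel i z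
  -- the `a' i` are linearly independent over `ℚ̄`
  have hind' : LinearIndependent Kb fun i => (a' i : Fb N) := by
    rw [Fintype.linearIndependent_iff]
    intro c hc i
    have h1 : (∑ i, c i • h i) * (bb : Fb N) = 0 := by
      rw [Finset.sum_mul, ← hc]
      refine Finset.sum_congr rfl fun i _ => ?_
      rw [ha' i, smul_mul_assoc]
    have h2 : ∑ i, c i • h i = 0 := (mul_eq_zero.mp h1).resolve_right hbb0
    exact Fintype.linearIndependent_iff.mp hind c h2 i
  have hw := linearIndependent_coeffMap_Rb N a' hind'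
  rw [Fintype.linearIndependent_iff] at hw ⊢
  intro g hg
  apply hw g
  -- the combination in the subring of functions meromorphic at the cusp
  let P : ι → merCuspSubring := fun i => ⟨Psi N (a' i), isMerCusp_Psi N (a' i)⟩
  let c : ι → merCuspSubring := fun i => ⟨fun _ => g i, isMerCusp_const (g i)⟩
  let T : merCuspSubring := ∑ i, c i * P i
  have hTcoe : ∀ z, (T : ℍ → ℂ) z = ∑ i, g i * Psi N (a' i) z := by
    intro z
    have : (T : ℍ → ℂ) = ∑ i, ((c i * P i : merCuspSubring) : ℍ → ℂ) := by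
      simp only [T]
      exact map_sum merCuspSubring.subtype _ _
    rw [this, Finset.sum_apply]
    rfl
  have hT0 : T = 0 := by
    apply Subtype.ext
    apply mdiff_eq_zero_of_mul_eq_zero (IsMerCusp.mdiff T.2) D_jFun_mdiff dJFun_ne_zero
    intro z
    rw [hTcoe z]
    have h1 : Psi N bb z * (∑ i, g i • f i) z = 0 := by rw [hg]; simp
    simp only [Finset.sum_apply, Pi.smul_apply, smul_eq_mul] at h1
    rw [Finset.mul_sum] at h1
    rw [Finset.sum_mul, ← h1]
    refine Finset.sum_congr rfl fun i _ => ?_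
    linear_combination g i * hrel' i z
  have h3 := congrArg qexpLHom hT0
  rw [map_zero, map_sum] at h3
  rw [← h3]
  refine Finset.sum_congr rfl fun i _ => ?_
  rw [map_mul, qexpLHom_apply, qexpLHom_apply]
  show g i • coeffMap iotaC _ = qexpL (fun _ => g i) * qexpL (Psi N (a' i))
  rw [qexpL_const, qexpL_Psi, HahnSeries.C_mul_eq_smul]

/-! ## The dimension inequality -/

/-- The coercion of cusp forms to functions, as a linear map. -/
noncomputable def cuspCoeLin (N : ℕ) : CuspForm (Gamma0 N) 2 →ₗ[ℂ] (ℍ → ℂ) where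
  toFun f := f
  map_add' _ _ := rfl
  map_smul' _ _ := rfl

/-- If every element of a `ℚ̄`-subspace `H` of `Fb N` can be packed into a cusp form of weight
two and level `Γ₀(N)`, then `dim_ℚ̄ H ≤ dim_ℂ S₂(Γ₀(N))`. -/
theorem finrank_le_finrank_cuspForm_of_isPack (N : ℕ) [NeZero N] (H : Submodule Kb (Fb N))
    (hex : ∀ h ∈ H, ∃ f : CuspForm (Gamma0 N) 2, IsPack N h f) :
    Module.finrank Kb H ≤ Module.finrank ℂ (CuspForm (Gamma0 N) 2) := by
  classical
  have hfree : Module.Free Kb H := Module.Free.of_divisionRing Kb H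
  by_cases hfin : Module.Finite Kb H
  · have := S21.finiteDimensional_cuspForm_two N
    let e := Module.finBasis Kb H
    have hind : LinearIndependent Kb fun i => ((e i : H) : Fb N) :=
      e.linearIndependent.map' H.subtype (Submodule.ker_subtype H)
    choose f hf using fun i => hex (e i) (e i).2
    have hli : LinearIndependent ℂ fun i => (f i : ℍ → ℂ) :=
      linearIndependent_of_isPack N _ _ hf hind
    have hli' : LinearIndependent ℂ f :=
      LinearIndependent.of_comp (cuspCoeLin N) hli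
    simpa using hli'.fintype_card_le_finrank
  · rw [Module.finrank_of_not_finite hfin]
    exact Nat.zero_le _

end Fermat.Agent.X0.RR7
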