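/-
X-RR, piece RR7-D5 (helper9), second part: the cusp conditions in the `q_N`-order language of
`Cusp.lean`, and the existence of the packed cusp form from local data.

* `HasOrdInf.eventually_ne_zero` : a function with an order at `i∞` is eventually nonzero;
* `isZeroAtImInfty_of_mul_eq` : `Q · H = P` with `ord Q < ord P` (or `P = 0`) gives `H → 0`;
* `hasOrdInf_D_jFun` : `D j` has order `-N` at `i∞` in the parameter `q_N`;
* `slash_two_mul_eq` : `(B ∘ γ) · (G ∣[2] γ) = (A ∘ γ) · D j` whenever `A · D j = B · G`;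
* `exists_cuspForm_isPack` : the cusp form attached to `h = a / b`.
-/
import Mathlib
import Fermat.Agent.X0.Cusp
import Fermat.Agent.X0.RR7.CuspPack

set_option autoImplicit false

namespace Fermat.Agent.X0.RR7

open UpperHalfPlane ModularForm CongruenceSubgroup Derivative ModularCurve Filter Topology
open Fermat.Agent.S23
open scoped MatrixGroups Manifold ModularForm

local notation "Δ" => ModularForm.discriminant

/-! ## Orders at `i∞` -/

theorem HasOrdInf.eventually_ne_zero {N : ℕ} {F : ℍ → ℂ} {k : ℤ} (h : HasOrdInf N F k) :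
    ∀ᶠ z in atImInfty, F z ≠ 0 := by
  obtain ⟨L, hL0, hL⟩ := h
  have h1 : ∀ᶠ z in atImInfty, F z * qN N z ^ (-k) ≠ 0 := hL.eventually_ne hL0
  filter_upwards [h1] with z hz
  exact left_ne_zero_of_mul hz

/-- If `Q · H = P` where `Q` has order `kQ` at `i∞` and `P` vanishes identically or has order
`> kQ`, then `H` tends to `0` at `i∞`. -/
theorem isZeroAtImInfty_of_mul_eq {N : ℕ} [NeZero N] {P Q H : ℍ → ℂ} {kQ : ℤ}
    (hQ : HasOrdInf N Q kQ) (hP : P = 0 ∨ ∃ kP : ℤ, HasOrdInf N P kP ∧ kQ < kP)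
    (h : ∀ z, Q z * H z = P z) : IsZeroAtImInfty H := by
  have hQ0 := HasOrdInf.eventually_ne_zero hQ
  rcases hP with rfl | ⟨kP, hP, hlt⟩
  · have : ∀ᶠ z in atImInfty, H z = 0 := by
      filter_upwards [hQ0] with z hz
      have := h z
      simpa [hz] using this
    exact (tendsto_const_nhds (x := (0 : ℂ))).congr' (this.mono fun z hz => hz.symm)
  · have hdiv := hP.div hQ
    have h0 := hdiv.tendsto_zero_of_lt (l := 0) (sub_pos.mpr hlt)
    have h1 : ∀ᶠ z in atImInfty, (P / Q) z * qN N z ^ (-(0 : ℤ)) = H z := by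
      filter_upwards [hQ0] with z hz
      rw [neg_zero, zpow_zero, mul_one, Pi.div_apply, ← h z, mul_div_cancel_left₀ _ hz]
    exact h0.congr' h1

/-- If `B · G = A` and `A`, `B` have orders `kA`, `kB` at `i∞`, then `G` has order `kA - kB`. -/
theorem hasOrdInf_of_mul_eq {N : ℕ} [NeZero N] {A B G : ℍ → ℂ} {kA kB : ℤ}
    (hA : HasOrdInf N A kA) (hB : HasOrdInf N B kB) (h : B * G = A) :
    HasOrdInf N G (kA - kB) := by
  obtain ⟨L, hL0, hL⟩ := hA.div hB
  refine ⟨L, hL0, hL.congr' ?_⟩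
  filter_upwards [HasOrdInf.eventually_ne_zero hB] with z hz
  have hz' : A z = B z * G z := by rw [← h]; rfl
  rw [Pi.div_apply, hz', mul_div_cancel_left₀ _ hz]

theorem isZeroAtImInfty_of_hasOrdInf {N : ℕ} [NeZero N] {G : ℍ → ℂ} {k : ℤ}
    (h : HasOrdInf N G k) (hk : 0 < k) : IsZeroAtImInfty G := by
  have h0 := h.tendsto_zero_of_lt hk
  refine h0.congr fun z => ?_
  rw [neg_zero, zpow_zero, mul_one]

/-- `D j` has a pole of order `N` at `i∞` in the parameter `q_N`. -/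
theorem hasOrdInf_D_jFun (N : ℕ) [NeZero N] : HasOrdInf N (D jFun) (-(N : ℤ)) := by
  have h := ((((hasOrdInf_E₄ N).pow 2).mul (hasOrdInf_E₆ N)).neg).div (hasOrdInf_discriminant N)
  have e : ((2 : ℕ) : ℤ) * 0 + 0 - (N : ℤ) = -(N : ℤ) := by ring
  rw [e] at h
  refine h.congr ?_
  funext z
  rw [D_jFun z]
  simp only [Pi.div_apply, Pi.neg_apply, Pi.mul_apply, Pi.pow_apply]

/-! ## The slash of the packed function -/

theorem slash_two_mul_eq {A B G : ℍ → ℂ} (γ : SL(2, ℤ))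
    (h : ∀ z, A z * D jFun z = B z * G z) (z : ℍ) :
    B (γ • z) * (G ∣[(2 : ℤ)] γ) z = A (γ • z) * D jFun z := by
  have hJ : (D jFun ∣[(2 : ℤ)] γ) z = D jFun z := by rw [D_jFun_slash]
  rw [ModularForm.SL_slash_apply] at hJ ⊢
  calc B (γ • z) * (G (γ • z) * denom γ z ^ (-(2 : ℤ)))
      = (B (γ • z) * G (γ • z)) * denom γ z ^ (-(2 : ℤ)) := by ring
    _ = (A (γ • z) * D jFun (γ • z)) * denom γ z ^ (-(2 : ℤ)) := by rw [h (γ • z)]
    _ = A (γ • z) * (D jFun (γ • z) * denom γ z ^ (-(2 : ℤ))) := by ring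
    _ = A (γ • z) * D jFun z := by rw [hJ]

/-- **Existence of the packed cusp form.**  Let `a, b ∈ Rb N`, `b ≠ 0`, and let `G` be a
holomorphic function with `Ψ(a) · D j = Ψ(b) · G` (it exists as soon as
`ord_z Ψ(b) ≤ ord_z (Ψ(a) · D j)` for all `z`).  Assume that for every `γ ∈ SL(2, ℤ)` the function
`Ψ(b) ∘ γ` has an order `kb γ` at `i∞` (parameter `q_N`), and that `Ψ(a) ∘ γ` vanishes identically
or has an order `> kb γ + N`.  Then `G` is a cusp form of weight `2` for `Γ₀(N)` and packs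
`a / b`. -/
theorem exists_cuspForm_isPack (N : ℕ) [NeZero N] (a b : Rb N) (hb : (b : Fb N) ≠ 0)
    (G : ℍ → ℂ) (hG : MDiff G) (hrel : ∀ z, Psi N a z * D jFun z = Psi N b z * G z)
    (hcusp : ∀ γ : SL(2, ℤ), ∃ kb : ℤ, HasOrdInf N (fun z => Psi N b (γ • z)) kb ∧
      ((fun z => Psi N a (γ • z)) = 0 ∨
        ∃ ka : ℤ, HasOrdInf N (fun z => Psi N a (γ • z)) ka ∧ kb + N < ka)) :
    ∃ f : CuspForm (Gamma0 N) 2, (f : ℍ → ℂ) = G ∧
      IsPack N ((a : Fb N) / (b : Fb N)) f := by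
  have hb' : b ≠ 0 := fun h => hb (by rw [h]; rfl)
  have hB0 : Psi N b ≠ 0 := fun h => hb' (Psi_injective N (by rw [h, map_zero]))
  have hinv : ∀ γ ∈ Gamma0 N, G ∣[(2 : ℤ)] γ = G := fun γ hγ =>
    slash_two_eq_of_mul_eq (Psi_mdiff N b) hB0 hG γ (Psi_smul N a γ hγ) (Psi_smul N b γ hγ) hrel
  have hzero : ∀ γ : SL(2, ℤ), IsZeroAtImInfty (G ∣[(2 : ℤ)] γ) := by
    intro γ
    obtain ⟨kb, hkb, hka⟩ := hcusp γ
    refine isZeroAtImInfty_of_mul_eq (N := N) (P := fun z => Psi N a (γ • z) * D jFun z)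
      hkb ?_ (slash_two_mul_eq γ hrel)
    rcases hka with h0 | ⟨ka, hka, hlt⟩
    · left
      funext z
      have := congrFun h0 z
      simp only [Pi.zero_apply] at this ⊢
      rw [this, zero_mul]
    · right
      refine ⟨ka + -(N : ℤ), hka.mul (hasOrdInf_D_jFun N), by linarith⟩
  exact ⟨cuspPack N G hG hinv hzero, rfl, a, b, hb, rfl, hrel⟩

end Fermat.Agent.X0.RR7
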