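import Mathlib
import Fermat.Agent.X0.Defs
import Fermat.Agent.X0.Alg.Dict
import Fermat.Agent.X0.Alg.PlaceBasic
import Fermat.Agent.X0.RR.Setup
import Fermat.Agent.X0.RR.EOver
import Fermat.Agent.X0.RR.FracIdealVal

/-!
# X-RR, RR7 (D1, infinity half): height-one primes of `Binf K F` versus poles of the coordinate

`F` a finite separable extension of `RatFunc K` (with a compatible `K`-algebra structure),
`infX K F := algebraMap (RatFunc K) F X` the coordinate, `Binf K F` the integral closure of the
valuation ring at infinity `Rinf K`.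

* `inf_ord_aeval_of_ord_neg`, `inf_ord_algebraMap_ratFunc` : at a pole `v` of the coordinate,
  `v.ord r = r.intDegree * v.ord x` for `r : RatFunc K`.
* `inf_Binf_mem` : `Binf K F` lies in the valuation ring of every pole of the coordinate.
* (I1) `infPlaceEquiv K F : HeightOneSpectrum (Binf K F) ≃ {v : Place K F // v.ord (infX K F) < 0}`,
  `w ↦ Place.ofHeightOneSpectrum w`.
* (I2) `inf_valuation_eq_exp_neg_ord` : `w.valuation F h = exp (-(v.ord h))`.
* (I3) `inf_eOver_eq_neg_ord` : `eOver (Rinf K) w = -(v.ord x)`; `inf_eOver_eq_ramificationIdx`.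
* (I4) `inf_finsum_eOver`, `inf_card_heightOneSpectrum`, `inf_finsum_eOver_add_one` :
  `∑ᶠ w, (eOver (Rinf K) w + 1) = [F : K(x)] + #(placesOverInfty K x)`.
-/

set_option autoImplicit false

open AlgebraicCurve IsDedekindDomain WithZero Polynomial UniqueFactorizationMonoid
open Fermat.Agent.X0 Fermat.Agent.X0.RR

namespace Fermat.Agent.X0.RR7

section PolyOrd

variable {K F : Type*} [Field K] [Field F] [Algebra K F]

/-- a sum of terms of `ord > B` (or zero) is zero or has `ord > B`. -/
theorem inf_ord_sum_gt (v : Place K F) {ι : Type*} (s : Finset ι) (f : ι → F) (B : ℤ)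
    (h : ∀ i ∈ s, f i = 0 ∨ B < v.ord (f i)) :
    ∑ i ∈ s, f i = 0 ∨ B < v.ord (∑ i ∈ s, f i) := by
  classical
  induction s using Finset.induction_on with
  | empty => left; simp
  | insert a s ha ih =>
    rw [Finset.sum_insert ha]
    have h1 := h a (Finset.mem_insert_self a s)
    have h2 := ih (fun i hi => h i (Finset.mem_insert_of_mem hi))
    by_cases h0 : f a + ∑ i ∈ s, f i = 0
    · left; exact h0
    right
    have := Place.le_ord_add v h0 (B + 1)
      (by rcases h1 with h1 | h1
          · right; exact h1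
          · left; omega)
      (by rcases h2 with h2 | h2
          · right; exact h2
          · left; omega)
    omega

/-- the order of a polynomial in `x` at a pole of `x`. -/
theorem inf_ord_aeval_of_ord_neg (v : Place K F) {x : F} (hx : v.ord x < 0) {p : K[X]}
    (hp : p ≠ 0) : v.ord (aeval x p) = p.natDegree * v.ord x := by
  have hx0 : x ≠ 0 := by
    rintro rfl
    simp at hx
  have hlc : p.leadingCoeff ≠ 0 := leadingCoeff_ne_zero.mpr hp
  have hterm : ∀ i : ℕ, p.coeff i ≠ 0 →
      v.ord (algebraMap K F (p.coeff i) * x ^ i) = i * v.ord x := by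
    intro i hi
    have hc : algebraMap K F (p.coeff i) ≠ 0 := by simpa using hi
    rw [v.ord_mul hc (pow_ne_zero _ hx0), Place.ord_algebraMap, Place.ord_pow, zero_add]
  have hsplit : aeval x p = algebraMap K F p.leadingCoeff * x ^ p.natDegree +
      ∑ i ∈ Finset.range p.natDegree, algebraMap K F (p.coeff i) * x ^ i := by
    rw [aeval_eq_sum_range, Finset.sum_range_succ, add_comm]
    simp only [Algebra.smul_def]
    rfl
  have hlead : v.ord (algebraMap K F p.leadingCoeff * x ^ p.natDegree) = p.natDegree * v.ord x :=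
    hterm p.natDegree hlc
  have hlead0 : algebraMap K F p.leadingCoeff * x ^ p.natDegree ≠ 0 :=
    mul_ne_zero (by simpa using hlc) (pow_ne_zero _ hx0)
  have hrest := inf_ord_sum_gt v (Finset.range p.natDegree)
    (fun i => algebraMap K F (p.coeff i) * x ^ i) (p.natDegree * v.ord x) (by
      intro i hi
      rw [Finset.mem_range] at hi
      by_cases hc : p.coeff i = 0
      · left; simp [hc]
      · right
        rw [hterm i hc]
        have : (i : ℤ) < p.natDegree := by exact_mod_cast hi
        nlinarith)
  rw [hsplit]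
  rcases hrest with h0 | hgt
  · rw [h0, add_zero, hlead]
  · by_cases hr0 : ∑ i ∈ Finset.range p.natDegree, algebraMap K F (p.coeff i) * x ^ i = 0
    · rw [hr0, add_zero, hlead]
    · rw [Place.ord_add_eq_of_lt v hlead0 hr0 (by rw [hlead]; exact hgt), hlead]

end PolyOrd

section RatOrd

variable {K F : Type*} [Field K] [Field F] [Algebra K F]
  [Algebra (RatFunc K) F] [IsScalarTower K (RatFunc K) F]

/-- the coordinate function of a `RatFunc K`-algebra. -/
noncomputable abbrev infX (K F : Type*) [Field K] [Field F] [Algebra (RatFunc K) F] : F :=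
  algebraMap (RatFunc K) F RatFunc.X

theorem inf_algebraMap_polynomial (p : K[X]) :
    algebraMap (RatFunc K) F (algebraMap K[X] (RatFunc K) p) = aeval (infX K F) p := by
  have h : (IsScalarTower.toAlgHom K (RatFunc K) F).comp
      (IsScalarTower.toAlgHom K K[X] (RatFunc K)) = aeval (infX K F) :=
    Polynomial.algHom_ext (by simp [infX, RatFunc.algebraMap_X])
  exact congrArg (fun f : K[X] →ₐ[K] F => f p) h

theorem inf_ord_algebraMap_ratFunc (v : Place K F) (hx : v.ord (infX K F) < 0) {r : RatFunc K}
    (hr : r ≠ 0) : v.ord (algebraMap (RatFunc K) F r) = r.intDegree * v.ord (infX K F) := by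
  have hnum : r.num ≠ 0 := RatFunc.num_ne_zero hr
  have hden : r.denom ≠ 0 := RatFunc.denom_ne_zero r
  have hinj : Function.Injective (algebraMap (RatFunc K) F) := (algebraMap (RatFunc K) F).injective
  have hn0 : aeval (infX K F) r.num ≠ 0 := by
    rw [← inf_algebraMap_polynomial]
    exact (map_ne_zero_iff _ hinj).mpr
      ((map_ne_zero_iff _ (IsFractionRing.injective K[X] (RatFunc K))).mpr hnum)
  have hd0 : aeval (infX K F) r.denom ≠ 0 := by
    rw [← inf_algebraMap_polynomial]
    exact (map_ne_zero_iff _ hinj).mpr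
      ((map_ne_zero_iff _ (IsFractionRing.injective K[X] (RatFunc K))).mpr hden)
  conv_lhs => rw [← RatFunc.num_div_denom r]
  rw [map_div₀, inf_algebraMap_polynomial, inf_algebraMap_polynomial, div_eq_mul_inv,
    v.ord_mul hn0 (inv_ne_zero hd0), Place.ord_inv, inf_ord_aeval_of_ord_neg v hx hnum,
    inf_ord_aeval_of_ord_neg v hx hden, RatFunc.intDegree]
  push_cast
  ring

/-- the valuation ring at infinity of `RatFunc K` maps into the valuation ring of every pole of
the coordinate. -/
theorem inf_algebraMap_Rinf_mem (v : Place K F) (hx : v.ord (infX K F) < 0) (r : Rinf K) :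
    algebraMap (Rinf K) F r ∈ v.toValuationSubring := by
  show algebraMap (RatFunc K) F (r : RatFunc K) ∈ v.toValuationSubring
  by_cases hr : (r : RatFunc K) = 0
  · rw [hr, map_zero]; exact zero_mem _
  apply Place.mem_of_ord_nonneg
  rw [inf_ord_algebraMap_ratFunc v hx hr]
  have h := (mem_Rinf_iff (r : RatFunc K)).mp r.2
  rcases h with h | h
  · exact absurd h hr
  · nlinarith

/-- the model at infinity lies in the valuation ring of every pole of the coordinate. -/
theorem inf_Binf_mem (v : Place K F) (hx : v.ord (infX K F) < 0) (b : Binf K F) :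
    algebraMap (Binf K F) F b ∈ v.toValuationSubring := by
  let φ : Rinf K →+* v.toValuationSubring :=
    (algebraMap (Rinf K) F).codRestrict v.toValuationSubring.toSubring
      (inf_algebraMap_Rinf_mem v hx)
  have hb : IsIntegral (Rinf K) (b : F) := b.2
  have hint : IsIntegral v.toValuationSubring ((RingHom.id F) (b : F)) :=
    IsIntegral.map_of_comp_eq φ (RingHom.id F) (RingHom.ext fun p => rfl) hb
  obtain ⟨y, hy⟩ := (IsIntegrallyClosed.isIntegral_iff (R := v.toValuationSubring) (K := F)).mp hint
  show (b : F) ∈ v.toValuationSubring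
  rw [RingHom.id_apply] at hy
  rw [← hy]
  exact y.2

end RatOrd

section Equiv

variable {K F : Type*} [Field K] [Field F] [Algebra K F]
  [Algebra (RatFunc K) F] [IsScalarTower K (RatFunc K) F]
  [FiniteDimensional (RatFunc K) F] [Algebra.IsSeparable (RatFunc K) F]

theorem inf_algebraMap_Xinv :
    algebraMap (Binf K F) F (algebraMap (Rinf K) (Binf K F) Xinv) = (infX K F)⁻¹ := by
  rw [← IsScalarTower.algebraMap_apply (Rinf K) (Binf K F) F]
  show algebraMap (RatFunc K) F ((Xinv : Rinf K) : RatFunc K) = _
  rw [coe_Xinv, map_inv₀]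

theorem inf_hloc : ∀ p : Ideal (Rinf K), p.IsMaximal → p = Ideal.span {(Xinv : Rinf K)} := by
  intro p hp
  rw [IsLocalRing.eq_maximalIdeal hp, maximalIdeal_Rinf_eq_span]

theorem inf_Xinv_mem (w : HeightOneSpectrum (Binf K F)) :
    algebraMap (Rinf K) (Binf K F) Xinv ∈ w.asIdeal := by
  have h := under_eq_span_of_local (A := Rinf K) (B := Binf K F) Xinv inf_hloc w
  have h1 : (Xinv : Rinf K) ∈ w.asIdeal.under (Rinf K) := by
    rw [h]; exact Ideal.mem_span_singleton_self _
  exact h1

theorem inf_infX_ne_zero : infX K F ≠ 0 := by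
  rw [infX, Ne, map_eq_zero_iff _ (algebraMap (RatFunc K) F).injective]
  exact RatFunc.X_ne_zero

/-- the place of a height-one prime of the model at infinity is a pole of the coordinate. -/
theorem inf_ord_infX_neg (w : HeightOneSpectrum (Binf K F)) :
    (Place.ofHeightOneSpectrum (K := K) (F := F) w).ord (infX K F) < 0 := by
  have h1 : w.valuation F ((infX K F)⁻¹) < 1 := by
    rw [← inf_algebraMap_Xinv, HeightOneSpectrum.valuation_lt_one_iff_mem]
    exact inf_Xinv_mem w
  have h2 : (Place.ofHeightOneSpectrum (K := K) (F := F) w).ord ((infX K F)⁻¹) =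
      - log (w.valuation F ((infX K F)⁻¹)) := Place.ord_ofHeightOneSpectrum w _
  have h3 : w.valuation F ((infX K F)⁻¹) ≠ 0 :=
    (Valuation.ne_zero_iff _).mpr (inv_ne_zero inf_infX_ne_zero)
  have h4 : log (w.valuation F ((infX K F)⁻¹)) < 0 := by
    rw [← WithZero.log_one]
    exact (WithZero.log_lt_log h3 one_ne_zero).mpr h1
  rw [Place.ord_inv] at h2
  omega

variable (K F) in
/-- (I1) the height-one primes of the model at infinity are the poles of the coordinate. -/
noncomputable def infPlaceEquiv :
    HeightOneSpectrum (Binf K F) ≃ {v : Place K F // v.ord (infX K F) < 0} :=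
  Equiv.ofBijective
    (fun w => ⟨Place.ofHeightOneSpectrum (K := K) (F := F) w, inf_ord_infX_neg w⟩)
    ⟨fun w₁ w₂ h => Place.ofHeightOneSpectrum_injective (K := K) (congrArg Subtype.val h),
      fun v => by
        obtain ⟨w, hw⟩ := Place.exists_ofHeightOneSpectrum_eq v.1 (inf_Binf_mem v.1 v.2)
        exact ⟨w, Subtype.ext hw⟩⟩

@[simp]
theorem infPlaceEquiv_apply (w : HeightOneSpectrum (Binf K F)) :
    ((infPlaceEquiv K F w : {v : Place K F // v.ord (infX K F) < 0}) : Place K F) =
      Place.ofHeightOneSpectrum (K := K) (F := F) w := rfl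

/-- (I2) valuation versus order. -/
theorem inf_valuation_eq_exp_neg_ord (w : HeightOneSpectrum (Binf K F)) {h : F} (hh : h ≠ 0) :
    w.valuation F h = exp (-((Place.ofHeightOneSpectrum (K := K) (F := F) w).ord h)) := by
  rw [Place.ord_ofHeightOneSpectrum, neg_neg, WithZero.exp_log]
  exact (Valuation.ne_zero_iff _).mpr hh

end Equiv

section EOver

variable {K F : Type*} [Field K] [Field F] [Algebra K F]
  [Algebra (RatFunc K) F] [IsScalarTower K (RatFunc K) F]
  [FiniteDimensional (RatFunc K) F] [Algebra.IsSeparable (RatFunc K) F]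

theorem inf_algebraMap_Xinv_ne_zero : algebraMap (Rinf K) (Binf K F) Xinv ≠ 0 := by
  intro h
  have h1 := congrArg (algebraMap (Binf K F) F) h
  rw [inf_algebraMap_Xinv, map_zero] at h1
  exact inv_ne_zero inf_infX_ne_zero h1

/-- (I3) the ramification index at infinity is the pole order of the coordinate. -/
theorem inf_eOver_eq_neg_ord (w : HeightOneSpectrum (Binf K F)) :
    (eOver (Rinf K) w : ℤ) = -(Place.ofHeightOneSpectrum (K := K) (F := F) w).ord (infX K F) := by
  classical
  have hb : algebraMap (Rinf K) (Binf K F) Xinv ≠ 0 := inf_algebraMap_Xinv_ne_zero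
  have hb' : (Ideal.span {algebraMap (Rinf K) (Binf K F) Xinv} : Ideal (Binf K F)) ≠ 0 := by
    rwa [Ne, Ideal.zero_eq_bot, Ideal.span_singleton_eq_bot]
  have h1 : eOver (Rinf K) w =
      (normalizedFactors (Ideal.span {algebraMap (Rinf K) (Binf K F) Xinv})).count w.asIdeal :=
    eOver_eq_count_span (A := Rinf K) (B := Binf K F) Xinv inf_hloc w
  have h2 : w.valuation F ((infX K F)⁻¹) = exp (-(eOver (Rinf K) w : ℤ)) := by
    rw [← inf_algebraMap_Xinv, HeightOneSpectrum.valuation_of_algebraMap,
      HeightOneSpectrum.intValuation_if_neg w hb,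
      Ideal.count_associates_factors_eq hb' w.isPrime w.ne_bot, h1]
  have h3 := Place.ord_ofHeightOneSpectrum (K := K) (F := F) w ((infX K F)⁻¹)
  rw [h2, WithZero.log_exp, Place.ord_inv] at h3
  omega

end EOver

section Count

variable {K F : Type*} [Field K] [Field F] [Algebra K F]
  [Algebra (RatFunc K) F] [IsScalarTower K (RatFunc K) F]
  [FiniteDimensional (RatFunc K) F] [Algebra.IsSeparable (RatFunc K) F]

theorem inf_eOver_eq_ramificationIdx (w : HeightOneSpectrum (Binf K F)) :
    eOver (Rinf K) w = w.asIdeal.ramificationIdx (Rinf K) := by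
  classical
  have hmap : (w.asIdeal.under (Rinf K)).map (algebraMap (Rinf K) (Binf K F)) ≠ ⊥ := by
    rw [under_eq_span_of_local (A := Rinf K) (B := Binf K F) Xinv inf_hloc w, Ideal.map_span,
      Set.image_singleton, Ne, Ideal.span_singleton_eq_bot]
    exact inf_algebraMap_Xinv_ne_zero
  rw [eOver, Ideal.IsDedekindDomain.ramificationIdx_eq_normalizedFactors_count
    (w.asIdeal.under (Rinf K)) w.asIdeal hmap]

/-- (I4a) the fundamental identity at infinity in `eOver` form. -/
theorem inf_finsum_eOver [IsAlgClosed K] :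
    ∑ᶠ w : HeightOneSpectrum (Binf K F), (eOver (Rinf K) w : ℤ) =
      Module.finrank (RatFunc K) F := by
  have h := Binf.finsum_ramificationIdx (K := K) (F := F)
  rw [← h]
  haveI : Finite (HeightOneSpectrum (Binf K F)) := Binf.finite_heightOneSpectrum K F
  letI := Fintype.ofFinite (HeightOneSpectrum (Binf K F))
  rw [finsum_eq_sum_of_fintype, finsum_eq_sum_of_fintype]
  push_cast
  exact Finset.sum_congr rfl fun w _ => by rw [inf_eOver_eq_ramificationIdx]

/-- (I4b) the number of height-one primes at infinity is the number of poles. -/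
theorem inf_card_heightOneSpectrum :
    Nat.card (HeightOneSpectrum (Binf K F)) = Nat.card (placesOverInfty K (infX K F)) :=
  Nat.card_congr (infPlaceEquiv K F)

/-- (I4) `∑ (e + 1)` over the primes at infinity. -/
theorem inf_finsum_eOver_add_one [IsAlgClosed K] :
    ∑ᶠ w : HeightOneSpectrum (Binf K F), ((eOver (Rinf K) w : ℤ) + 1) =
      Module.finrank (RatFunc K) F + Nat.card (placesOverInfty K (infX K F)) := by
  haveI : Finite (HeightOneSpectrum (Binf K F)) := Binf.finite_heightOneSpectrum K F
  letI := Fintype.ofFinite (HeightOneSpectrum (Binf K F))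
  rw [← inf_finsum_eOver (K := K) (F := F), ← inf_card_heightOneSpectrum,
    finsum_eq_sum_of_fintype, finsum_eq_sum_of_fintype, Finset.sum_add_distrib,
    Nat.card_eq_fintype_card]
  simp

end Count

end Fermat.Agent.X0.RR7
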